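/-
T1B (S44), cell TORIC50, brick CMP, slice (C2) NORM COMPAT (helper38), part (a): the norm of a
finite projective algebra (`Norm84.projNorm`) versus the field norm on the generic fibre, and its
compatibility with reduction modulo an ideal.  Mathlib + `Norm84` only.
-/
import Fermat.Agent.T1B.Norm84.BaseChange

set_option autoImplicit false
set_option linter.unusedSectionVars false
set_option linter.style.haveILetI false

namespace Fermat.Agent.T1B.Cmp38

open Fermat.Agent.T1B.Norm84
open scoped TensorProduct

/-- The generic fibre `F = M⁻¹ S` of a finite `S'`-algebra `S` is finite over `F' = M⁻¹ S'`. -/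
theorem finite_generic {S' : Type*} [CommRing S'] {S : Type*} [CommRing S] [Algebra S' S]
    [Module.Finite S' S] {F' : Type*} [CommRing F'] [Algebra S' F'] (M : Submonoid S')
    [IsLocalization M F'] {F : Type*} [CommRing F] [Algebra S' F] [Algebra S F] [Algebra F' F]
    [IsScalarTower S' S F] [IsScalarTower S' F' F]
    [IsLocalization (Algebra.algebraMapSubmonoid S M) F] : Module.Finite F' F :=
  Module.Finite.of_isLocalization S' S M

/-- **`projNorm` versus the field norm**: for `x ∈ S`, the image of `projNorm S' S x` in the
field `F' = M⁻¹ S'` is the norm of `x` in the finite `F'`-algebra `F = M⁻¹ S`. -/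
theorem algebraMap_projNorm_eq_norm {S' : Type*} [CommRing S'] {S : Type*} [CommRing S]
    [Algebra S' S] [Module.Finite S' S] [Module.Projective S' S] {F' : Type*} [Field F']
    [Algebra S' F'] (M : Submonoid S') [IsLocalization M F'] {F : Type*} [CommRing F]
    [Algebra S' F] [Algebra S F] [Algebra F' F] [IsScalarTower S' S F] [IsScalarTower S' F' F]
    [IsLocalization (Algebra.algebraMapSubmonoid S M) F] (x : S) :
    algebraMap S' F' (projNorm S' S x) = Algebra.norm F' (algebraMap S F x) := by
  haveI : Module.Finite F' F := finite_generic (S' := S') (S := S) M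
  haveI : Module.Projective F' F := Module.Projective.of_free
  rw [← projNorm_eq_norm, projNorm_of_isLocalization (R := S') (S := F') (C := S) (C' := F) M x]

/-- The fraction-field form: `S'` a domain, `F' = Frac S'`, `F = (S' ∖ 0)⁻¹ S`. -/
theorem algebraMap_projNorm_eq_norm_fractionRing {S' : Type*} [CommRing S'] [IsDomain S']
    {S : Type*} [CommRing S] [Algebra S' S] [Module.Finite S' S] [Module.Projective S' S]
    {F' : Type*} [Field F'] [Algebra S' F'] [IsFractionRing S' F'] {F : Type*} [CommRing F]
    [Algebra S' F] [Algebra S F] [Algebra F' F] [IsScalarTower S' S F] [IsScalarTower S' F' F]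
    [IsLocalization (Algebra.algebraMapSubmonoid S (nonZeroDivisors S')) F] (x : S) :
    algebraMap S' F' (projNorm S' S x) = Algebra.norm F' (algebraMap S F x) :=
  algebraMap_projNorm_eq_norm (nonZeroDivisors S') x

/-- **`projNorm` commutes with reduction modulo an ideal** `I` of the base:
`S'/I ⊗ S` is finite projective over `S'/I` and `N(1 ⊗ x) = N(x) mod I`. -/
theorem projNorm_quotient {S' : Type*} [CommRing S'] {S : Type*} [CommRing S] [Algebra S' S]
    [Module.Finite S' S] [Module.Projective S' S] (I : Ideal S') (x : S) :
    projNorm (S' ⧸ I) ((S' ⧸ I) ⊗[S'] S) (1 ⊗ₜ[S'] x) = Ideal.Quotient.mk I (projNorm S' S x) :=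
  projNorm_baseChange (S' ⧸ I) x

end Fermat.Agent.T1B.Cmp38
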