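/-
T1B (S44), cell TORIC50, brick CMP, slice (2b) NORM vs FIELD NORM (helper38).
Mathlib + `Norm84` only.

* `algebraMap_projNorm_eq_norm_of_isFractionRing` : `S' ⊆ S` domains, `S` finite projective over
  `S'`, `F' = Frac S'`, `F = Frac S`: the image of `projNorm S' S x` in `F'` is `N_{F/F'}(x)`;
* `map_projNorm_eq_norm` : the same, instance-free (ring homs `ι' : S' → F'`, `ι : S → F` as data);
* `map_tnorm_eq_norm`    : the same for helper84's tensor-layer norm
  `Norm84.tnorm W R A C : R ⊗[W] C →* R ⊗[W] A` (= `NormSys.N01` of helper11's stage 2).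
-/
import Fermat.Agent.T1B.Cmp38.NormCompat
import Fermat.Agent.T1B.Norm84.Tensor2

set_option autoImplicit false
set_option linter.unusedSectionVars false
set_option linter.style.haveILetI false

namespace Fermat.Agent.T1B.Cmp38

open Fermat.Agent.T1B.Norm84
open scoped TensorProduct nonZeroDivisors

/-- **`projNorm` versus the field norm, fraction-field form.** -/
theorem algebraMap_projNorm_eq_norm_of_isFractionRing {S' : Type*} [CommRing S'] [IsDomain S']
    {S : Type*} [CommRing S] [IsDomain S] [Algebra S' S] [FaithfulSMul S' S] [Module.Finite S' S]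
    [Module.Projective S' S] {F' : Type*} [Field F'] [Algebra S' F'] [IsFractionRing S' F']
    {F : Type*} [Field F] [Algebra S F] [IsFractionRing S F] [Algebra S' F] [Algebra F' F]
    [IsScalarTower S' S F] [IsScalarTower S' F' F] (x : S) :
    algebraMap S' F' (projNorm S' S x) = Algebra.norm F' (algebraMap S F x) := by
  haveI : Algebra.IsAlgebraic S' S := inferInstance
  haveI : IsLocalization (Algebra.algebraMapSubmonoid S S'⁰) F := inferInstance
  exact algebraMap_projNorm_eq_norm S'⁰ x

/-- **Instance-free form.**  `φ : S' → S` (given as the `Algebra S' S` instance) injective, finite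
projective, `S` a domain; `ι' : S' → F'`, `ι : S → F` identify the fields `F'`, `F` with the
fraction fields, compatibly with `F' → F`.  Then `ι' (N x) = N_{F/F'} (ι x)`. -/
theorem map_projNorm_eq_norm {S' : Type*} [CommRing S'] {S : Type*} [CommRing S] [IsDomain S]
    [Algebra S' S] [Module.Finite S' S] [Module.Projective S' S]
    (hφ : Function.Injective (algebraMap S' S))
    {F' : Type*} [Field F'] {F : Type*} [Field F] [Algebra F' F]
    (ι' : S' →+* F') (ι : S →+* F)
    (hfrac' : letI := ι'.toAlgebra; IsFractionRing S' F')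
    (hfrac : letI := ι.toAlgebra; IsFractionRing S F)
    (hcompat : ∀ a : S', algebraMap F' F (ι' a) = ι (algebraMap S' S a)) (x : S) :
    ι' (projNorm S' S x) = Algebra.norm F' (ι x) := by
  letI : Algebra S' F' := ι'.toAlgebra
  letI : Algebra S F := ι.toAlgebra
  letI : Algebra S' F := (ι.comp (algebraMap S' S)).toAlgebra
  haveI : IsFractionRing S' F' := hfrac'
  haveI : IsFractionRing S F := hfrac
  haveI : IsDomain S' := hφ.isDomain _
  haveI : FaithfulSMul S' S := (faithfulSMul_iff_algebraMap_injective S' S).mpr hφ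
  haveI : IsScalarTower S' S F := IsScalarTower.of_algebraMap_eq fun a => rfl
  haveI : IsScalarTower S' F' F := IsScalarTower.of_algebraMap_eq fun a => (hcompat a).symm
  exact algebraMap_projNorm_eq_norm_of_isFractionRing (S' := S') (S := S) (F' := F') (F := F) x

section TNorm

variable (W R A C : Type*) [CommRing W] [CommRing R] [CommRing A] [CommRing C]
  [Algebra W R] [Algebra W A] [Algebra W C] [Algebra A C] [IsScalarTower W A C]
  [Module.Finite A C] [Module.Projective A C]

attribute [local instance 50] tAlg tAlgA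
attribute [local instance] Algebra.TensorProduct.rightAlgebra tTower tFinite tProjective

/-- **`tnorm` versus the field norm.**  `R ⊗[W] C` a domain, `id ⊗ (A → C)` injective,
`ι' : R ⊗[W] A → F'`, `ι : R ⊗[W] C → F` the fraction fields, compatible with `F' → F`.
Then `ι' (tnorm x) = N_{F/F'} (ι x)`. -/
theorem map_tnorm_eq_norm [IsDomain (R ⊗[W] C)]
    (hφ : Function.Injective
      (Algebra.TensorProduct.map (AlgHom.id R R) (IsScalarTower.toAlgHom W A C)))
    {F' : Type*} [Field F'] {F : Type*} [Field F] [Algebra F' F]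
    (ι' : R ⊗[W] A →+* F') (ι : R ⊗[W] C →+* F)
    (hfrac' : letI := ι'.toAlgebra; IsFractionRing (R ⊗[W] A) F')
    (hfrac : letI := ι.toAlgebra; IsFractionRing (R ⊗[W] C) F)
    (hcompat : ∀ a : R ⊗[W] A, algebraMap F' F (ι' a) =
      ι (Algebra.TensorProduct.map (AlgHom.id R R) (IsScalarTower.toAlgHom W A C) a))
    (x : R ⊗[W] C) :
    ι' (tnorm W R A C x) = Algebra.norm F' (ι x) :=
  map_projNorm_eq_norm (S' := R ⊗[W] A) (S := R ⊗[W] C) hφ ι' ι hfrac' hfrac hcompat x

end TNorm

end Fermat.Agent.T1B.Cmp38
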