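/-
T1B / brick CMP (helper38), hub plug helper: **the compatibility hypothesis `hcompat` of
`Cmp64/NormChart.e01_tnorm` from its values on pure tensors** (Mathlib only).

`e' : L ⊗[W] B01' → F'`, `e : L ⊗[W] B01 → F` ring homs which are STANDARD on pure tensors
(`e (l ⊗ b) = l · γ b`, as `Bridge48.chartIsoN_e01_tmul` / `ChartIso20`), `ψ : F' →ₐ[L] F`.
If `ψ (γ' b') = γ (algebraMap B01' B01 b')` for all `b' : B01'` then
`ψ (e' a) = e ((id ⊗ (B01' → B01)) a)` for all `a`.
-/
import Mathlib

set_option autoImplicit false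
set_option linter.unusedSectionVars false

open scoped TensorProduct

namespace Fermat.Agent.T1B.Cmp38

theorem compat_of_tmul {W L : Type*} [CommRing W] [Field L] [Algebra W L]
    {B01' B01 : Type*} [CommRing B01'] [CommRing B01] [Algebra W B01'] [Algebra W B01]
    [Algebra B01' B01] [IsScalarTower W B01' B01]
    {F' F : Type*} [Field F'] [Field F] [Algebra L F'] [Algebra L F]
    (e' : L ⊗[W] B01' →+* F') (e : L ⊗[W] B01 →+* F) (ψ : F' →ₐ[L] F)
    (γ' : B01' → F') (γ : B01 → F)
    (he' : ∀ (l : L) (b : B01'), e' (l ⊗ₜ[W] b) = algebraMap L F' l * γ' b)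
    (he : ∀ (l : L) (b : B01), e (l ⊗ₜ[W] b) = algebraMap L F l * γ b)
    (hγ : ∀ b' : B01', ψ (γ' b') = γ (algebraMap B01' B01 b')) (a : L ⊗[W] B01') :
    ψ (e' a) = e (Algebra.TensorProduct.map (AlgHom.id L L)
      (IsScalarTower.toAlgHom W B01' B01) a) := by
  induction a using TensorProduct.induction_on with
  | zero => rw [map_zero, map_zero, map_zero, map_zero]
  | tmul l b =>
    rw [Algebra.TensorProduct.map_tmul, he', he, map_mul, AlgHom.commutes, hγ]
    rfl
  | add x y hx hy => rw [map_add, map_add, hx, hy, map_add, map_add]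

/-- The same for a ring hom `ψ` which is `L`-linear on constants. -/
theorem compat_of_tmul' {W L : Type*} [CommRing W] [Field L] [Algebra W L]
    {B01' B01 : Type*} [CommRing B01'] [CommRing B01] [Algebra W B01'] [Algebra W B01]
    [Algebra B01' B01] [IsScalarTower W B01' B01]
    {F' F : Type*} [Field F'] [Field F] [Algebra L F'] [Algebra L F]
    (e' : L ⊗[W] B01' →+* F') (e : L ⊗[W] B01 →+* F) (ψ : F' →+* F)
    (hψ : ∀ l : L, ψ (algebraMap L F' l) = algebraMap L F l)
    (γ' : B01' → F') (γ : B01 → F)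
    (he' : ∀ (l : L) (b : B01'), e' (l ⊗ₜ[W] b) = algebraMap L F' l * γ' b)
    (he : ∀ (l : L) (b : B01), e (l ⊗ₜ[W] b) = algebraMap L F l * γ b)
    (hγ : ∀ b' : B01', ψ (γ' b') = γ (algebraMap B01' B01 b')) (a : L ⊗[W] B01') :
    ψ (e' a) = e (Algebra.TensorProduct.map (AlgHom.id L L)
      (IsScalarTower.toAlgHom W B01' B01) a) := by
  induction a using TensorProduct.induction_on with
  | zero => rw [map_zero, map_zero, map_zero, map_zero]
  | tmul l b =>
    rw [Algebra.TensorProduct.map_tmul, he', he, map_mul, hψ, hγ]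
    rfl
  | add x y hx hy => rw [map_add, map_add, hx, hy, map_add, map_add]

end Fermat.Agent.T1B.Cmp38
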