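/-
T1B / brick CMP (helper38), part (2b): **the field norm under base change**.

`F/F'` a finite extension of fields, `E'/F'` any extension, `E = E' ⊗_{F'} F` (`Algebra.IsPushout`; `E` need
not be a field).  Then `N_{E/E'} (x) = N_{F/F'} (x)` for `x ∈ F`.  This passes between the norm of
`F̄_N / α(F̄_{M'})` over `ℚ̄` (Prelude; where `π_i x = 0` lives) and the norm of
`Frac (O ⊗ B01) / Frac (O ⊗ B01')` (where `Norm84.tnorm` lives).
-/
import Mathlib
import Fermat.Agent.T1B.Norm84.BaseChange

set_option autoImplicit false
set_option linter.unusedSectionVars false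
set_option linter.style.haveILetI false

namespace Fermat.Agent.T1B.Cmp38

open Fermat.Agent.T1B.Norm84

/-- **Base change of the norm of a finite free algebra** (pushout form). -/
theorem norm_algebraMap_of_isPushout {R : Type*} [CommRing R] {S : Type*} [CommRing S] [Algebra R S]
    {C : Type*} [CommRing C] [Algebra R C] [Module.Finite R C] [Module.Free R C]
    {C' : Type*} [CommRing C'] [Algebra R C'] [Algebra S C'] [Algebra C C']
    [IsScalarTower R S C'] [IsScalarTower R C C'] [Algebra.IsPushout R S C C'] (c : C) :
    Algebra.norm S (algebraMap C C' c) = algebraMap R S (Algebra.norm R c) := by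
  have hbc : IsBaseChange S (IsScalarTower.toAlgHom R C C').toLinearMap := Algebra.IsPushout.out
  haveI : Module.Finite S C' := finite_of_isBaseChange hbc
  haveI : Module.Free S C' := hbc.free
  rw [← projNorm_eq_norm, ← projNorm_eq_norm]
  exact projNorm_of_isPushout c

/-- **Field form.** -/
theorem norm_algebraMap_of_isPushout_field {F' F E' E : Type*} [Field F'] [Field F] [Field E']
    [CommRing E] [Algebra F' F] [Algebra F' E'] [Algebra F' E] [Algebra E' E] [Algebra F E]
    [IsScalarTower F' E' E] [IsScalarTower F' F E] [Module.Finite F' F]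
    [Algebra.IsPushout F' E' F E] (x : F) :
    Algebra.norm E' (algebraMap F E x) = algebraMap F' E' (Algebra.norm F' x) :=
  norm_algebraMap_of_isPushout x

end Fermat.Agent.T1B.Cmp38
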