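/-
T1B / brick CMP (helper38): **norms of elements of a base-changed fractional ideal, by the
norm-form polynomial + interpolation over an infinite field** (pure algebra, Mathlib only).

`F / F'` finite (free), `L ⊆ F'` an infinite field, `I ⊆ F` and `V ⊆ F'` `L`-subspaces with
`N_{F/F'}(f) ∈ V` for all `f ∈ I` (ELEMENTWISE statement on `L`-rational elements, e.g. from the norm
formula on the `ℚ̄`-curve).  Then for every `F'`-algebra `E'` (e.g. the function field over a bigger
constant field), every `L`-algebra `Λ → E'` and all `eᵢ ∈ Λ`, `fᵢ ∈ I`: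
  `N_{E' ⊗ F / E'} (Σ eᵢ ⊗ fᵢ) ∈ Λ-span of V in E'`.
(The norm of a sum is not determined by the norms of the summands; but `e ↦ N(Σ eᵢ fᵢ)` is a polynomial
with coefficients in `F'`, its values at `L`-points are in `V`, hence so are its coefficients.)

* `normPoly b f`, `eval₂_normPoly`, `eval_normPoly`;
* `coeff_mem_of_forall_eval_mem` : interpolation;
* `leftMulMatrix_baseChange_tmul`, `norm_sum_tmul_eq`;
* `norm_sum_tmul_mem_span` : the statement above;  `norm_sum_mul_mem_span_of_isPushout` : the same for
  any `T` with `Algebra.IsPushout F' E' F T`.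
-/
import Mathlib

set_option autoImplicit false
set_option linter.unusedSectionVars false

open scoped TensorProduct
open MvPolynomial

namespace Fermat.Agent.T1B.Cmp38

/-! ### the norm-form polynomial -/

section NormPoly

variable {R' S : Type*} [CommRing R'] [CommRing S] [Algebra R' S]
  {κ : Type*} [Fintype κ] [DecidableEq κ] (b : Module.Basis κ R' S)
  {ι : Type*} [Fintype ι] (f : ι → S)

/-- The norm form `e ↦ N(Σ eᵢ fᵢ)` as a polynomial. -/
noncomputable def normPoly : MvPolynomial ι R' :=
  Matrix.det (∑ i, (X i : MvPolynomial ι R') • (Algebra.leftMulMatrix b (f i)).map C)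

theorem eval₂_normPoly {T' : Type*} [CommRing T'] (φ : R' →+* T') (e : ι → T') :
    eval₂ φ e (normPoly b f) =
      Matrix.det (∑ i, e i • (Algebra.leftMulMatrix b (f i)).map φ) := by
  rw [normPoly, ← coe_eval₂Hom, RingHom.map_det]
  congr 1
  ext a c
  simp [Matrix.sum_apply, Matrix.smul_apply, map_sum]

theorem eval_normPoly (l : ι → R') :
    eval l (normPoly b f) = Algebra.norm R' (∑ i, l i • f i) := by
  rw [eval, coe_eval₂Hom, eval₂_normPoly, Algebra.norm_eq_matrix_det b, map_sum]
  congr 1
  refine Finset.sum_congr rfl fun i _ => ?_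
  rw [map_smul]
  congr 1

end NormPoly

/-! ### interpolation -/

section Interp

variable {L F' : Type*} [Field L] [Infinite L] [CommRing F'] [Algebra L F']
  {ι : Type*} [Fintype ι]

/-- A polynomial over `F'` whose values at all `L`-points lie in an `L`-subspace `V ⊆ F'` has all its
coefficients in `V`. -/
theorem coeff_mem_of_forall_eval_mem (V : Submodule L F') (P : MvPolynomial ι F')
    (h : ∀ l : ι → L, eval (fun i => algebraMap L F' (l i)) P ∈ V) (k : ι →₀ ℕ) :
    coeff k P ∈ V := by
  classical
  by_contra hk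
  obtain ⟨φ, hφk, hφV⟩ := Submodule.exists_le_ker_of_notMem hk
  set Q : MvPolynomial ι L := ∑ d ∈ P.support, monomial d (φ (coeff d P)) with hQ
  have hQ0 : Q = 0 := by
    refine MvPolynomial.funext fun l => ?_
    rw [map_zero, hQ, map_sum]
    have h1 : φ (eval (fun i => algebraMap L F' (l i)) P) = 0 := hφV (h l)
    rw [eval_eq', map_sum] at h1
    rw [← h1]
    refine Finset.sum_congr rfl fun d _ => ?_
    rw [eval_monomial, Finsupp.prod_fintype _ _ (fun i => pow_zero _)]
    have h2 : ∏ i, algebraMap L F' (l i) ^ d i = algebraMap L F' (∏ i, l i ^ d i) := by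
      rw [map_prod]; simp
    rw [h2, mul_comm (coeff d P), ← Algebra.smul_def, map_smul, smul_eq_mul, mul_comm]
  have h3 : coeff k Q = φ (coeff k P) := by
    rw [hQ, coeff_sum]
    simp only [coeff_monomial]
    rw [Finset.sum_ite_eq']
    split_ifs with hmem
    · rfl
    · rw [notMem_support_iff.mp hmem, map_zero]
  rw [hQ0, coeff_zero] at h3
  exact hφk h3.symm

end Interp

/-! ### the norm on `E' ⊗ F` -/

section BaseChange

variable {F' F : Type*} [CommRing F'] [CommRing F] [Algebra F' F]
  {κ : Type*} [Fintype κ] [DecidableEq κ] (b : Module.Basis κ F' F)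
  (E' : Type*) [CommRing E'] [Algebra F' E']

theorem leftMulMatrix_baseChange_tmul (x : E') (s : F) :
    Algebra.leftMulMatrix (b.baseChange E') (x ⊗ₜ[F'] s) =
      x • (Algebra.leftMulMatrix b s).map (algebraMap F' E') := by
  ext i j
  rw [Algebra.leftMulMatrix_eq_repr_mul, Module.Basis.baseChange_apply,
    Algebra.TensorProduct.tmul_mul_tmul, mul_one, Module.Basis.baseChange_repr_tmul,
    Matrix.smul_apply, Matrix.map_apply, Algebra.leftMulMatrix_eq_repr_mul, Algebra.smul_def,
    smul_eq_mul, mul_comm]

variable {ι : Type*} [Fintype ι]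

theorem norm_sum_tmul_eq (f : ι → F) (e : ι → E') :
    Algebra.norm E' (∑ i, e i ⊗ₜ[F'] f i) = eval₂ (algebraMap F' E') e (normPoly b f) := by
  rw [eval₂_normPoly, Algebra.norm_eq_matrix_det (b.baseChange E'), map_sum]
  congr 1
  exact Finset.sum_congr rfl fun i _ => leftMulMatrix_baseChange_tmul b E' (e i) (f i)

end BaseChange

/-! ### the main statement -/

section Main

variable {L F' F : Type*} [Field L] [Infinite L] [CommRing F'] [CommRing F] [Algebra L F']
  [Algebra F' F] [Algebra L F] [IsScalarTower L F' F] [Module.Free F' F] [Module.Finite F' F]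
  {E' : Type*} [CommRing E'] [Algebra F' E']
  {Λ : Type*} [CommRing Λ] [Algebra Λ E']
  {ι : Type*} [Fintype ι]

/-- **Norms of elements of the base-changed fractional ideal.** -/
theorem norm_sum_tmul_mem_span (V : Submodule L F') (I : Submodule L F)
    (hI : ∀ f ∈ I, Algebra.norm F' f ∈ V) (f : ι → F) (hf : ∀ i, f i ∈ I) (e : ι → Λ) :
    Algebra.norm E' (∑ i, algebraMap Λ E' (e i) ⊗ₜ[F'] f i) ∈
      Submodule.span Λ ((algebraMap F' E') '' (V : Set F')) := by
  classical
  let b := Module.Free.chooseBasis F' F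
  have hcoef : ∀ k, coeff k (normPoly b f) ∈ V := by
    refine coeff_mem_of_forall_eval_mem V _ fun l => ?_
    rw [eval_normPoly]
    refine hI _ (Submodule.sum_mem _ fun i _ => ?_)
    rw [algebraMap_smul]
    exact I.smul_mem _ (hf i)
  rw [norm_sum_tmul_eq b, eval₂_eq']
  refine Submodule.sum_mem _ fun d _ => ?_
  have h1 : ∏ i, algebraMap Λ E' (e i) ^ d i = algebraMap Λ E' (∏ i, e i ^ d i) := by
    rw [map_prod]; simp
  rw [h1, mul_comm, ← Algebra.smul_def]
  exact Submodule.smul_mem _ _ (Submodule.subset_span ⟨_, hcoef d, rfl⟩)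

/-- **Pushout form**: `T = E' ⊗_{F'} F` abstractly (`Algebra.IsPushout F' E' F T`), e.g. `T = F̂` the
function field over the bigger constant field. -/
theorem norm_sum_mul_mem_span_of_isPushout {T : Type*} [CommRing T] [Algebra E' T] [Algebra F T]
    [Algebra F' T] [IsScalarTower F' E' T] [IsScalarTower F' F T] [Algebra.IsPushout F' E' F T]
    (V : Submodule L F') (I : Submodule L F)
    (hI : ∀ f ∈ I, Algebra.norm F' f ∈ V) (f : ι → F) (hf : ∀ i, f i ∈ I) (e : ι → Λ) :
    Algebra.norm E' (∑ i, algebraMap E' T (algebraMap Λ E' (e i)) * algebraMap F T (f i)) ∈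
      Submodule.span Λ ((algebraMap F' E') '' (V : Set F')) := by
  have h1 := norm_sum_tmul_mem_span (E' := E') (Λ := Λ) V I hI f hf e
  rw [← Algebra.norm_eq_of_algEquiv (Algebra.IsPushout.equiv F' E' F T), map_sum] at h1
  simpa only [Algebra.IsPushout.equiv_tmul] using h1

end Main

end Fermat.Agent.T1B.Cmp38
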