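/-
T1B / brick CMP (helper38): **fraction fields of a pushout square form a pushout square**.

```
  A'  →  A            F'  →  F
  ↓      ↓     ⟹     ↓      ↓        (F' = Frac A', F = Frac A, F̂' = Frac Â', F̂ = Frac Â)
  Â'  →  Â            F̂'  →  F̂
```
`A' → A` and `Â' → Â` injective algebraic (e.g. finite) extensions of domains, `Â = Â' ⊗_{A'} A`.
Then `F̂ = F̂' ⊗_{F'} F` (`Algebra.IsPushout F' F̂' F F̂`); in particular `[F̂ : F̂'] = [F : F']` and the norm of
`F̂ / F̂'` restricts to the norm of `F / F'` (`NormBCField`), and `NormPoly.norm_sum_mul_mem_span_of_isPushout`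
applies.  (`A' = L ⊗ B01'`, `A = L ⊗ B01`, `Â' = E ⊗ B01'`, `Â = E ⊗ B01`.)
-/
import Mathlib

set_option autoImplicit false
set_option linter.unusedSectionVars false
set_option linter.style.haveILetI false

open scoped nonZeroDivisors

namespace Fermat.Agent.T1B.Cmp38

section

variable (A' A Ah' Ah F' F Fh' Fh : Type*)
  [CommRing A'] [CommRing A] [CommRing Ah'] [CommRing Ah]
  [IsDomain A'] [IsDomain A] [IsDomain Ah'] [IsDomain Ah]
  [Field F'] [Field F] [Field Fh'] [Field Fh]
  -- the square of rings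
  [Algebra A' A] [Algebra A' Ah'] [Algebra A Ah] [Algebra Ah' Ah] [Algebra A' Ah]
  [IsScalarTower A' A Ah] [IsScalarTower A' Ah' Ah]
  -- fraction fields
  [Algebra A' F'] [IsFractionRing A' F'] [Algebra A F] [IsFractionRing A F]
  [Algebra Ah' Fh'] [IsFractionRing Ah' Fh'] [Algebra Ah Fh] [IsFractionRing Ah Fh]
  -- the square of fields
  [Algebra F' F] [Algebra F' Fh'] [Algebra F Fh] [Algebra Fh' Fh] [Algebra F' Fh]
  [IsScalarTower F' F Fh] [IsScalarTower F' Fh' Fh]
  -- the four side squares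
  [Algebra A' F] [IsScalarTower A' A F] [IsScalarTower A' F' F]
  [Algebra Ah' Fh] [IsScalarTower Ah' Ah Fh] [IsScalarTower Ah' Fh' Fh]
  [Algebra A' Fh'] [IsScalarTower A' Ah' Fh'] [IsScalarTower A' F' Fh']
  [Algebra A Fh] [IsScalarTower A Ah Fh] [IsScalarTower A F Fh]
  -- the diagonal
  [Algebra A' Fh] [IsScalarTower A' A Fh] [IsScalarTower A' Fh' Fh]

/-- **Fraction fields of a pushout square of domains form a pushout square.** -/
theorem isPushout_fractionRing [Algebra.IsPushout A' Ah' A Ah]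
    [FaithfulSMul A' A] [Algebra.IsAlgebraic A' A]
    [FaithfulSMul Ah' Ah] [Algebra.IsAlgebraic Ah' Ah] :
    Algebra.IsPushout F' Fh' F Fh := by
  -- square 2: `F = F' ⊗_{A'} A`
  haveI : IsLocalization (Algebra.algebraMapSubmonoid A A'⁰) F := inferInstance
  haveI h2 : Algebra.IsPushout A' F' A F :=
    (Algebra.isPushout_of_isLocalization A'⁰ F' A F).symm
  -- square 3: `F̂ = F̂' ⊗_{Â'} Â`
  haveI : IsLocalization (Algebra.algebraMapSubmonoid Ah Ah'⁰) Fh := inferInstance
  haveI h3 : Algebra.IsPushout Ah' Fh' Ah Fh :=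
    (Algebra.isPushout_of_isLocalization Ah'⁰ Fh' Ah Fh).symm
  -- missing towers
  haveI : IsScalarTower A' Ah' Fh := IsScalarTower.of_algebraMap_eq fun x => by
    rw [IsScalarTower.algebraMap_apply A' Fh' Fh, IsScalarTower.algebraMap_apply A' Ah' Fh',
      ← IsScalarTower.algebraMap_apply Ah' Fh' Fh]
  haveI : IsScalarTower A' Ah Fh := IsScalarTower.of_algebraMap_eq fun x => by
    rw [IsScalarTower.algebraMap_apply A' Ah' Fh, IsScalarTower.algebraMap_apply A' Ah' Ah,
      ← IsScalarTower.algebraMap_apply Ah' Ah Fh]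
  haveI : IsScalarTower A' F' Fh := IsScalarTower.of_algebraMap_eq fun x => by
    rw [IsScalarTower.algebraMap_apply A' Fh' Fh, IsScalarTower.algebraMap_apply A' F' Fh',
      ← IsScalarTower.algebraMap_apply F' Fh' Fh]
  haveI : IsScalarTower A' F Fh := IsScalarTower.of_algebraMap_eq fun x => by
    rw [IsScalarTower.algebraMap_apply A' A Fh, IsScalarTower.algebraMap_apply A' A F,
      ← IsScalarTower.algebraMap_apply A F Fh]
  -- big rectangle `A' → Â' → F̂'` over `A → Â → F̂`
  have h13 : Algebra.IsPushout A' Fh' A Fh :=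
    (Algebra.IsPushout.comp_iff A' Ah' A Ah (T := Fh') (T' := Fh)).mpr h3
  -- cancel square 2
  exact (Algebra.IsPushout.comp_iff A' F' A F (T := Fh') (T' := Fh)).mp h13

end

end Fermat.Agent.T1B.Cmp38
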