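/-
T1B / brick CMP (helper38): the norm of `F̂ / F̂'` on the cube of `PushoutFrac.lean`
(`A' → A`, `Â' → Â` injective finite extensions of domains, `Â = Â' ⊗_{A'} A`, fraction fields
`F' ⊂ F`, `F̂' ⊂ F̂`):
* `norm_algebraMap_of_cube`        : `N_{F̂/F̂'} (f) = N_{F/F'} (f)` for `f ∈ F`;
* `norm_sum_mul_mem_span_of_cube`  : `N_{F̂/F̂'} (Σ eᵢ fᵢ) ∈ Λ-span of V` for `fᵢ ∈ I`, when
  `N_{F/F'} (f) ∈ V` for all `f ∈ I` (`I ⊆ F`, `V ⊆ F'` subspaces over an infinite field `L ⊆ F'`).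
-/
import Mathlib
import Fermat.Agent.T1B.Cmp38.PushoutFrac
import Fermat.Agent.T1B.Cmp38.NormBCField
import Fermat.Agent.T1B.Cmp38.NormPoly

set_option autoImplicit false
set_option linter.unusedSectionVars false
set_option linter.style.haveILetI false

open scoped nonZeroDivisors

namespace Fermat.Agent.T1B.Cmp38

section

variable (A' A Ah' Ah : Type*) {F' F Fh' Fh : Type*}
  [CommRing A'] [CommRing A] [CommRing Ah'] [CommRing Ah]
  [IsDomain A'] [IsDomain A] [IsDomain Ah'] [IsDomain Ah]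
  [Field F'] [Field F] [Field Fh'] [Field Fh]
  [Algebra A' A] [Algebra A' Ah'] [Algebra A Ah] [Algebra Ah' Ah] [Algebra A' Ah]
  [IsScalarTower A' A Ah] [IsScalarTower A' Ah' Ah]
  [Algebra A' F'] [IsFractionRing A' F'] [Algebra A F] [IsFractionRing A F]
  [Algebra Ah' Fh'] [IsFractionRing Ah' Fh'] [Algebra Ah Fh] [IsFractionRing Ah Fh]
  [Algebra F' F] [Algebra F' Fh'] [Algebra F Fh] [Algebra Fh' Fh] [Algebra F' Fh]
  [IsScalarTower F' F Fh] [IsScalarTower F' Fh' Fh]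
  [Algebra A' F] [IsScalarTower A' A F] [IsScalarTower A' F' F]
  [Algebra Ah' Fh] [IsScalarTower Ah' Ah Fh] [IsScalarTower Ah' Fh' Fh]
  [Algebra A' Fh'] [IsScalarTower A' Ah' Fh'] [IsScalarTower A' F' Fh']
  [Algebra A Fh] [IsScalarTower A Ah Fh] [IsScalarTower A F Fh]
  [Algebra A' Fh] [IsScalarTower A' A Fh] [IsScalarTower A' Fh' Fh]
  [Algebra.IsPushout A' Ah' A Ah]
  [FaithfulSMul A' A] [Algebra.IsAlgebraic A' A]
  [FaithfulSMul Ah' Ah] [Algebra.IsAlgebraic Ah' Ah]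
  [Module.Finite F' F]

include A' A Ah' Ah in
/-- `N_{F̂/F̂'} (f) = N_{F/F'} (f)` for `f ∈ F`. -/
theorem norm_algebraMap_of_cube (x : F) :
    Algebra.norm Fh' (algebraMap F Fh x) = algebraMap F' Fh' (Algebra.norm F' x) := by
  haveI : Algebra.IsPushout F' Fh' F Fh := isPushout_fractionRing A' A Ah' Ah F' F Fh' Fh
  exact norm_algebraMap_of_isPushout_field x

include A' A Ah' Ah in
/-- `N_{F̂/F̂'} (Σ eᵢ fᵢ) ∈ Λ-span of V`. -/
theorem norm_sum_mul_mem_span_of_cube {L : Type*} [Field L] [Infinite L] [Algebra L F']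
    [Algebra L F] [IsScalarTower L F' F] {Λ : Type*} [CommRing Λ] [Algebra Λ Fh']
    {ι : Type*} [Fintype ι] (V : Submodule L F') (I : Submodule L F)
    (hI : ∀ f ∈ I, Algebra.norm F' f ∈ V) (f : ι → F) (hf : ∀ i, f i ∈ I) (e : ι → Λ) :
    Algebra.norm Fh' (∑ i, algebraMap Fh' Fh (algebraMap Λ Fh' (e i)) * algebraMap F Fh (f i)) ∈
      Submodule.span Λ ((algebraMap F' Fh') '' (V : Set F')) := by
  haveI : Algebra.IsPushout F' Fh' F Fh := isPushout_fractionRing A' A Ah' Ah F' F Fh' Fh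
  exact norm_sum_mul_mem_span_of_isPushout V I hI f hf e

end

end Fermat.Agent.T1B.Cmp38
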