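/-
T1B / brick CMP (helper38): **the `int` / `inv` fields of `Cmp15.GenericHyp` from `L`-rational data**
(abstract builder; Mathlib + `NormPoly`).

Setting.  `O` a domain (the DVR), `L` an infinite field (the number field), `F_L' ⊂ F_L` a finite extension
(`L`-rational function fields), `F̂' ⊂ F̂` fields over them with `F̂ = F̂' ⊗_{F_L'} F_L` (`PushoutFrac`), `O → F̂'` the
constants, `ρ' : R' → F̂'` the target chart (`R' = O ⊗ B_j'`, an `O`-algebra).
`InLoc ρ' y` : `∃ c : O, c ≠ 0 ∧ ∃ z : R', ρ' z = c • y`   (`y ∈ R'[1/ϖ]`, the shape of `GenericHyp.int_j`).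

* `inLoc_norm_of_mem_span` (**int**): `I ⊆ F_L`, `V ⊆ F_L'` `L`-subspaces with `N(f) ∈ V` for `f ∈ I`
  (elementwise, `L`-rational), `V·h ⊆ R'[1/ϖ]`; then for every `g ∈ F̂` with `d • g ∈ O-span of I` (`d ≠ 0`):
  `N̂(g) * h ∈ R'[1/ϖ]`.
* `inLoc_norm_inv_of_frame` (**inv**): `J ⊆ F_L` (the inverse ideal), `V₂` with `N(δ) ∈ V₂` for `δ ∈ J`,
  `V₂·h' ⊆ R'[1/ϖ]`; `1 = Σ fᵢ δᵢ` (`δᵢ ∈ J`); `C ⊆ F_L` with `C·J ⊆ J` and the integral chart
  `ιR : R → F̂` inside the `O`-span of `C`; then every `γ ∈ F̂` with `dᵢ • (γ·fᵢ) ∈ ιR R` satisfies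
  `N̂(γ) * h' ∈ R'[1/ϖ]`.
-/
import Mathlib
import Fermat.Agent.T1B.Cmp38.NormPoly

set_option autoImplicit false
set_option linter.unusedSectionVars false

namespace Fermat.Agent.T1B.Cmp38

section

variable {O : Type*} [CommRing O] [IsDomain O]
  {Fh' : Type*} [Field Fh'] [Algebra O Fh']
  {R' : Type*} [CommRing R'] [Algebra O R'] (ρ' : R' →+* Fh')

/-- `y ∈ R'[1/O∖0]` inside `F̂'`. -/
def InLoc (y : Fh') : Prop := ∃ c : O, c ≠ 0 ∧ ∃ z : R', ρ' z = algebraMap O Fh' c * y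

variable {ρ'}

theorem InLoc.zero : InLoc (O := O) ρ' 0 := ⟨1, one_ne_zero, 0, by simp⟩

theorem InLoc.add (hρ' : ∀ c : O, ρ' (algebraMap O R' c) = algebraMap O Fh' c) {y₁ y₂ : Fh'}
    (h₁ : InLoc (O := O) ρ' y₁) (h₂ : InLoc (O := O) ρ' y₂) : InLoc (O := O) ρ' (y₁ + y₂) := by
  obtain ⟨c₁, hc₁, z₁, hz₁⟩ := h₁
  obtain ⟨c₂, hc₂, z₂, hz₂⟩ := h₂
  refine ⟨c₁ * c₂, mul_ne_zero hc₁ hc₂, algebraMap O R' c₂ * z₁ + algebraMap O R' c₁ * z₂, ?_⟩
  rw [map_add, map_mul, map_mul, hρ', hρ', hz₁, hz₂, map_mul]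
  ring

theorem InLoc.smul (hρ' : ∀ c : O, ρ' (algebraMap O R' c) = algebraMap O Fh' c) (a : O) {y : Fh'}
    (h : InLoc (O := O) ρ' y) : InLoc (O := O) ρ' (algebraMap O Fh' a * y) := by
  obtain ⟨c, hc, z, hz⟩ := h
  refine ⟨c, hc, algebraMap O R' a * z, ?_⟩
  rw [map_mul, hρ', hz]
  ring

/-- `InLoc (· * h)` passes to `O`-spans. -/
theorem inLoc_mul_of_mem_span (hρ' : ∀ c : O, ρ' (algebraMap O R' c) = algebraMap O Fh' c)
    (h : Fh') (S : Set Fh') (hS : ∀ y ∈ S, InLoc (O := O) ρ' (y * h)) {y : Fh'}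
    (hy : y ∈ Submodule.span O S) : InLoc (O := O) ρ' (y * h) := by
  induction hy using Submodule.span_induction with
  | mem x hx => exact hS x hx
  | zero => rw [zero_mul]; exact InLoc.zero
  | add x y _ _ hx hy => rw [add_mul]; exact hx.add hρ' hy
  | smul a x _ hx =>
    rw [Algebra.smul_def, mul_assoc]
    exact hx.smul hρ' a

/-- cancel a nonzero constant. -/
theorem InLoc.of_mul_pow {d : O} (hd : d ≠ 0) (n : ℕ) {y : Fh'}
    (h : InLoc (O := O) ρ' (algebraMap O Fh' d ^ n * y)) : InLoc (O := O) ρ' y := by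
  obtain ⟨c, hc, z, hz⟩ := h
  refine ⟨c * d ^ n, mul_ne_zero hc (pow_ne_zero n hd), z, ?_⟩
  rw [hz, map_mul, map_pow]
  ring

end

section Main

variable {O : Type*} [CommRing O] [IsDomain O]
  {L : Type*} [Field L] [Infinite L]
  {FL' FL : Type*} [Field FL'] [Field FL] [Algebra L FL'] [Algebra FL' FL] [Algebra L FL]
  [IsScalarTower L FL' FL] [FiniteDimensional FL' FL]
  {Fh' Fh : Type*} [Field Fh'] [Field Fh] [Algebra Fh' Fh] [Algebra FL' Fh'] [Algebra FL Fh]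
  [Algebra FL' Fh] [IsScalarTower FL' Fh' Fh] [IsScalarTower FL' FL Fh]
  [Algebra.IsPushout FL' Fh' FL Fh]
  [Algebra O Fh'] [Algebra O Fh] [IsScalarTower O Fh' Fh]
  {R' : Type*} [CommRing R'] [Algebra O R'] {ρ' : R' →+* Fh'}

/-- **int.** -/
theorem inLoc_norm_of_mem_span (hρ' : ∀ c : O, ρ' (algebraMap O R' c) = algebraMap O Fh' c)
    (V : Submodule L FL') (I : Submodule L FL) (hI : ∀ f ∈ I, Algebra.norm FL' f ∈ V) (h : Fh')
    (hV : ∀ v ∈ V, InLoc (O := O) ρ' (algebraMap FL' Fh' v * h))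
    {g : Fh} {d : O} (hd : d ≠ 0)
    (hg : d • g ∈ Submodule.span O ((algebraMap FL Fh) '' (I : Set FL))) :
    InLoc (O := O) ρ' (Algebra.norm Fh' g * h) := by
  classical
  obtain ⟨l, hl, hlg⟩ := (Finsupp.mem_span_image_iff_linearCombination O).mp hg
  -- the finite family
  have hf : ∀ i : ↥l.support, (i : FL) ∈ I := fun i => hl i.2
  have h1 := norm_sum_mul_mem_span_of_isPushout (E' := Fh') (Λ := O) (T := Fh) V I hI
    (fun i : ↥l.support => (i : FL)) hf (fun i => l i)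
  have h2 : (∑ i : ↥l.support, algebraMap Fh' Fh (algebraMap O Fh' (l i)) *
      algebraMap FL Fh (i : FL)) = d • g := by
    rw [← hlg, Finsupp.linearCombination_apply, Finsupp.sum,
      ← Finset.sum_coe_sort l.support (fun x => l x • algebraMap FL Fh x)]
    refine Finset.sum_congr rfl fun i _ => ?_
    rw [Algebra.smul_def, IsScalarTower.algebraMap_apply O Fh' Fh]
  rw [h2, Algebra.smul_def, IsScalarTower.algebraMap_apply O Fh' Fh, map_mul,
    Algebra.norm_algebraMap] at h1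
  have h3 := inLoc_mul_of_mem_span hρ' h _ (by
    rintro y ⟨v, hv, rfl⟩
    exact hV v hv) h1
  rw [mul_assoc] at h3
  exact h3.of_mul_pow hd _

/-- **inv.** -/
theorem inLoc_norm_inv_of_frame (hρ' : ∀ c : O, ρ' (algebraMap O R' c) = algebraMap O Fh' c)
    (V₂ : Submodule L FL') (J : Submodule L FL) (hJ : ∀ δ ∈ J, Algebra.norm FL' δ ∈ V₂) (h' : Fh')
    (hV₂ : ∀ v ∈ V₂, InLoc (O := O) ρ' (algebraMap FL' Fh' v * h'))
    {R : Type*} [CommRing R] (ιR : R →+* Fh) (C : Set FL)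
    (hR : ∀ u : R, ιR u ∈ Submodule.span O ((algebraMap FL Fh) '' C))
    (hCJ : ∀ c ∈ C, ∀ δ ∈ J, c * δ ∈ J)
    {ι : Type*} [Fintype ι] (f δ : ι → FL) (hδ : ∀ i, δ i ∈ J) (h1 : ∑ i, f i * δ i = 1)
    (γ : Fh) (hγ : ∀ i, ∃ d : O, d ≠ 0 ∧ ∃ u : R, d • (γ * algebraMap FL Fh (f i)) = ιR u) :
    InLoc (O := O) ρ' (Algebra.norm Fh' γ * h') := by
  classical
  choose d hd u hu using hγ
  set SJ := Submodule.span O ((algebraMap FL Fh) '' (J : Set FL)) with hSJ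
  -- `span C * span J ⊆ span J`
  have hmul : ∀ x ∈ Submodule.span O ((algebraMap FL Fh) '' C), ∀ y ∈ SJ, x * y ∈ SJ := by
    intro x hx y hy
    have h2 := Submodule.mul_mem_mul hx hy
    rw [Submodule.span_mul_span] at h2
    refine Submodule.span_mono ?_ h2
    rintro _ ⟨_, ⟨c, hc, rfl⟩, _, ⟨δ', hδ', rfl⟩, rfl⟩
    exact ⟨c * δ', hCJ c hc δ' hδ', by simp⟩
  -- each summand
  have hsum : ∀ i, d i • (γ * algebraMap FL Fh (f i) * algebraMap FL Fh (δ i)) ∈ SJ := by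
    intro i
    rw [← smul_mul_assoc, hu i]
    exact hmul _ (hR (u i)) _ (Submodule.subset_span ⟨δ i, hδ i, rfl⟩)
  have hγ1 : γ = ∑ i, γ * algebraMap FL Fh (f i) * algebraMap FL Fh (δ i) := by
    have : (∑ i, algebraMap FL Fh (f i) * algebraMap FL Fh (δ i)) = 1 := by
      simp only [← map_mul, ← map_sum, h1, map_one]
    calc γ = γ * 1 := (mul_one γ).symm
      _ = γ * ∑ i, algebraMap FL Fh (f i) * algebraMap FL Fh (δ i) := by rw [this]
      _ = ∑ i, γ * algebraMap FL Fh (f i) * algebraMap FL Fh (δ i) := by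
        rw [Finset.mul_sum]
        exact Finset.sum_congr rfl fun i _ => (mul_assoc _ _ _).symm
  have hD : (∏ i, d i) • γ ∈ SJ := by
    rw [hγ1, Finset.smul_sum]
    refine Submodule.sum_mem _ fun i _ => ?_
    rw [← Finset.mul_prod_erase Finset.univ d (Finset.mem_univ i), mul_comm, mul_smul]
    exact Submodule.smul_mem _ _ (hsum i)
  exact inLoc_norm_of_mem_span hρ' V₂ J hJ h' hV₂
    (Finset.prod_ne_zero_iff.mpr fun i _ => hd i) hD

end Main

end Fermat.Agent.T1B.Cmp38
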