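/-
T1B / brick CMP (helper38), step (3) of (X-LP): **transfer of the field norm along a constant field
extension, from the equality of degrees** (Mathlib only).

`F / F'` finite, `F̂ / F̂'` a field extension of the same degree, `c' : F' → F̂'`, `c : F → F̂` compatible ring
homs such that `F̂` is generated over `F̂'` by `c(F)` (`IntermediateField.adjoin F̂' (range c) = ⊤`).
Then `N_{F̂/F̂'} (c f) = c' (N_{F/F'} f)`.
(`F' = L·F_{M'}`, `F = L·F_N`, `F̂' = ℚ̄·F_{M'}`, `F̂ = ℚ̄·F_N`, `c = cL`; degrees `p + 1` on both sides.)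
-/
import Mathlib

set_option autoImplicit false
set_option linter.unusedSectionVars false
set_option linter.style.haveILetI false

open Module

namespace Fermat.Agent.T1B.Cmp38

section

variable {F' F Fh' Fh : Type*} [Field F'] [Field F] [Field Fh'] [Field Fh]
  [Algebra F' F] [Algebra Fh' Fh] [FiniteDimensional F' F]
  (c' : F' →+* Fh') (c : F →+* Fh)

/-- `c(F)` spans `F̂` over `F̂'` when it generates it as a field (everything being algebraic). -/
theorem span_range_eq_top_of_adjoin_eq_top [Algebra.IsAlgebraic Fh' Fh]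
    (hgen : IntermediateField.adjoin Fh' (Set.range c) = ⊤) :
    Submodule.span Fh' (Set.range c) = ⊤ := by
  have h1 : (IntermediateField.adjoin Fh' (Set.range c)).toSubalgebra =
      Algebra.adjoin Fh' (Set.range c) := IntermediateField.adjoin_toSubalgebra _
  have h2 : Subalgebra.toSubmodule (Algebra.adjoin Fh' (Set.range c)) =
      Submodule.span Fh' (Submonoid.closure (Set.range c)) := Algebra.adjoin_eq_span _ _
  have h3 : (Submonoid.closure (Set.range c) : Set Fh) = Set.range c := by
    have h4 : Set.range c = ((MonoidHom.mrange (c : F →* Fh) : Submonoid Fh) : Set Fh) := by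
      ext y; simp
    rw [h4, Submonoid.closure_eq]
  rw [h3] at h2
  rw [← h2, ← h1, hgen]
  rfl

variable {c' c}

/-- **Transfer of the norm.** -/
theorem norm_map_eq_of_span_top (hc : ∀ a : F', c (algebraMap F' F a) = algebraMap Fh' Fh (c' a))
    (hfr : finrank Fh' Fh = finrank F' F)
    (hspan : Submodule.span Fh' (Set.range c) = ⊤) (f : F) :
    Algebra.norm Fh' (c f) = c' (Algebra.norm F' f) := by
  classical
  let b := Module.finBasis F' F
  let v : Fin (finrank F' F) → Fh := fun i => c (b i)
  -- `c x` in terms of `v`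
  have hrepr : ∀ x : F, c x = ∑ i, c' (b.repr x i) • v i := by
    intro x
    conv_lhs => rw [← b.sum_repr x]
    rw [map_sum]
    refine Finset.sum_congr rfl fun i _ => ?_
    rw [Algebra.smul_def, map_mul, hc, ← Algebra.smul_def]
  have hle : ⊤ ≤ Submodule.span Fh' (Set.range v) := by
    rw [← hspan, Submodule.span_le]
    rintro _ ⟨x, rfl⟩
    rw [hrepr x]
    exact Submodule.sum_mem _ fun i _ =>
      Submodule.smul_mem _ _ (Submodule.subset_span ⟨i, rfl⟩)
  have hcard : Fintype.card (Fin (finrank F' F)) = finrank Fh' Fh := by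
    rw [Fintype.card_fin, hfr]
  let bh : Basis (Fin (finrank F' F)) Fh' Fh := basisOfTopLeSpanOfCardEqFinrank v hle hcard
  have hbh : ∀ i, bh i = v i := fun i => by
    simp only [bh, coe_basisOfTopLeSpanOfCardEqFinrank]
  have hreprh : ∀ (x : F) (i), bh.repr (c x) i = c' (b.repr x i) := by
    intro x i
    have h1 : c x = ∑ j, c' (b.repr x j) • bh j := by
      rw [hrepr x]
      exact Finset.sum_congr rfl fun j _ => by rw [hbh]
    rw [h1, bh.repr_sum_self]
  rw [Algebra.norm_eq_matrix_det bh, Algebra.norm_eq_matrix_det b, RingHom.map_det]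
  congr 1
  ext i j
  rw [Algebra.leftMulMatrix_eq_repr_mul, RingHom.mapMatrix_apply, Matrix.map_apply,
    Algebra.leftMulMatrix_eq_repr_mul, hbh, ← map_mul, hreprh]

/-- **Transfer of the norm**, generation form. -/
theorem norm_map_eq_of_adjoin_eq_top
    (hc : ∀ a : F', c (algebraMap F' F a) = algebraMap Fh' Fh (c' a))
    (hfr : finrank Fh' Fh = finrank F' F)
    (hgen : IntermediateField.adjoin Fh' (Set.range c) = ⊤) (f : F) :
    Algebra.norm Fh' (c f) = c' (Algebra.norm F' f) := by
  haveI : FiniteDimensional Fh' Fh :=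
    Module.finite_of_finrank_pos (by rw [hfr]; exact Module.finrank_pos)
  exact norm_map_eq_of_span_top hc hfr (span_range_eq_top_of_adjoin_eq_top c hgen) f

end

section

open IntermediateField

/-- **Generation lemma** (generic): if `F̂ = K̂(S)` inside `Ê` and every element of `S` is in the image of
`c : F → F̂`, then `F̂` is generated over `ψ̂(F̂')` by `c(F)`, for any `K̂`-algebra map `ψ̂ : F̂' → F̂`. -/
theorem adjoin_range_eq_top_of_adjoin {Kb Eb : Type*} [Field Kb] [Field Eb] [Algebra Kb Eb]
    (S : Set Eb) {Fb' F : Type*} [Field Fb'] [Field F] [Algebra Kb Fb']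
    (ψb : Fb' →ₐ[Kb] ↥(IntermediateField.adjoin Kb S))
    (c : F →+* ↥(IntermediateField.adjoin Kb S))
    (hS : ∀ s ∈ S, ∃ a : F, ((c a : ↥(IntermediateField.adjoin Kb S)) : Eb) = s) :
    letI := ψb.toRingHom.toAlgebra
    IntermediateField.adjoin Fb' (Set.range c) = ⊤ := by
  letI := ψb.toRingHom.toAlgebra
  rw [eq_top_iff]
  rintro ⟨x, hx⟩ -
  induction hx using IntermediateField.adjoin_induction with
  | mem y hy =>
    obtain ⟨a, ha⟩ := hS y hy
    exact IntermediateField.subset_adjoin _ _ ⟨a, Subtype.ext ha⟩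
  | algebraMap a =>
    have h1 : (⟨algebraMap Kb Eb a, IntermediateField.algebraMap_mem _ a⟩ :
        ↥(IntermediateField.adjoin Kb S)) =
        algebraMap Fb' ↥(IntermediateField.adjoin Kb S) (algebraMap Kb Fb' a) := by
      show _ = ψb (algebraMap Kb Fb' a)
      rw [ψb.commutes]
      rfl
    rw [h1]
    exact IntermediateField.algebraMap_mem _ _
  | add x y hx hy ihx ihy => exact add_mem ihx ihy
  | inv x hx ihx => exact inv_mem ihx
  | mul x y hx hy ihx ihy => exact mul_mem ihx ihy

end

end Fermat.Agent.T1B.Cmp38
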