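/-
T1B / brick CMP (helper38), step (3) of (X-LP): **the norm along a degeneracy map commutes with the
extension of constants `L → ℚ̄`**:
  `cL (N_{ψ_L} f) = N_{ψ̄} (cL f)`   for `f ∈ L·F_{M' p}`, `ψ ∈ {α_p, β_p}`, `p ∤ M'`,
`cL = Dict59.cL : L·F_M → ℚ̄·F_M` the coefficientwise inclusion, `ψ_L = heckeAlphaBar ↥L M' p` (resp.
`heckeBetaBar`), `ψ̄ = heckeAlphaBar ℚ̄ M' p`.  Proof: both extensions have degree `p + 1`
(`AlongDegree25`), and `ℚ̄·F_N` is generated over `ψ̄(ℚ̄·F_{M'})` by `cL (L·F_N)`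
(`NormTransfer.norm_map_eq_of_adjoin_eq_top`).
-/
import Mathlib
import Fermat.Agent.T1.Dict59.Iface
import Fermat.Agent.ES.HECKE.AlongDegree25
import Fermat.Agent.ES.HECKE.BaseChange19
import Fermat.Agent.T1B.Cmp38.NormTransfer

set_option autoImplicit false
set_option linter.unusedSectionVars false
set_option linter.style.haveILetI false

open HahnSeries AlgebraicCurve ModularCurve IntermediateField
open Fermat.Agent.RED.Interface4 Fermat.Agent.T1.Dict59
open Fermat.Agent.ES.HECKE.BaseChange19 (normAlong)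

noncomputable section

namespace Fermat.Agent.T1B.Cmp38

variable (M' p : ℕ) [NeZero M'] [NeZero p] (L : IntermediateField ℚ Qbar)

theorem cL_heckeAlphaBar (a : FK M' L) :
    cL (M' * p) L (heckeAlphaBar ↥L M' p a) = heckeAlphaBar Qbar M' p (cL M' L a) := by
  apply Subtype.ext
  rw [coe_cL, coe_heckeAlphaBar, coe_heckeAlphaBar, coe_cL]

theorem cL_heckeBetaBar (a : FK M' L) :
    cL (M' * p) L (heckeBetaBar ↥L M' p a) = heckeBetaBar Qbar M' p (cL M' L a) := by
  apply Subtype.ext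
  rw [coe_cL, coe_heckeBetaBar, coe_heckeBetaBar, coe_cL, coeffMap_qExpand]

variable {M' p L}

/-- `ℚ̄·F_N` is generated over `ψ̄ (ℚ̄·F_{M'})` by `cL (L·F_N)`. -/
theorem adjoin_range_cL_eq_top (N : ℕ) (ψb : Fbar M' →ₐ[Qbar] Fbar N) :
    letI := algebraAlong ψb
    IntermediateField.adjoin (Fbar M') (Set.range (cL N L)) = ⊤ := by
  refine adjoin_range_eq_top_of_adjoin (Kb := Qbar) (Eb := LaurentSeries Qbar)
    (⇑(coeffEmb Qbar) '' (modularFunctionFieldFull N : Set (LaurentSeries ℚ)))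
    (Fb' := Fbar M') (F := FK N L) ψb (cL N L) ?_
  rintro _ ⟨z, hz, rfl⟩
  refine ⟨⟨coeffEmb ↥L z, coeffEmb_mem_laurentBaseChange ↥L hz⟩, ?_⟩
  show coeffMap (algebraMap ↥L Qbar) (coeffMap (algebraMap ℚ ↥L) z) = coeffMap (algebraMap ℚ Qbar) z
  rw [coeffMap_coeffMap, ← IsScalarTower.algebraMap_eq]

/-- **Generic form**: `ψ_L`, `ψ̄` compatible with `cL`, of the same (positive) degree. -/
theorem cL_normAlong_of_compat {N : ℕ} (ψL : FK M' L →ₐ[↥L] FK N L) (ψb : Fbar M' →ₐ[Qbar] Fbar N)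
    (hcompat : ∀ a, cL N L (ψL a) = ψb (cL M' L a))
    (hfr : finrankAlong Qbar ψb = finrankAlong ↥L ψL) (hpos : 0 < finrankAlong ↥L ψL)
    (f : FK N L) : cL M' L (normAlong ψL f) = normAlong ψb (cL N L f) := by
  letI := algebraAlong ψL
  letI := algebraAlong ψb
  haveI : FiniteDimensional (FK M' L) (FK N L) := Module.finite_of_finrank_pos hpos
  exact (norm_map_eq_of_adjoin_eq_top (c' := cL M' L) (c := cL N L) hcompat hfr
    (adjoin_range_cL_eq_top N ψb) f).symm

variable (M' p L)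

/-- **`cL (N_α f) = N_ᾱ (cL f)`.** -/
theorem cL_normAlong_alpha (hp : p.Prime) (hpM : ¬ p ∣ M') (f : FK (M' * p) L) :
    cL M' L (normAlong (heckeAlphaBar ↥L M' p) f) =
      normAlong (heckeAlphaBar Qbar M' p) (cL (M' * p) L f) := by
  have h1 := Fermat.Agent.ES.HECKE.AlongDegree25.finrankAlong_alpha ↥L M' p hp hpM
  have h2 := Fermat.Agent.ES.HECKE.AlongDegree25.finrankAlong_alpha Qbar M' p hp hpM
  exact cL_normAlong_of_compat _ _ (cL_heckeAlphaBar M' p L) (by rw [h1, h2])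
    (by rw [h1]; exact Nat.succ_pos p) f

/-- **`cL (N_β f) = N_β̄ (cL f)`.** -/
theorem cL_normAlong_beta (hp : p.Prime) (hpM : ¬ p ∣ M') (f : FK (M' * p) L) :
    cL M' L (normAlong (heckeBetaBar ↥L M' p) f) =
      normAlong (heckeBetaBar Qbar M' p) (cL (M' * p) L f) := by
  have h1 := Fermat.Agent.ES.HECKE.AlongDegree25.finrankAlong_beta ↥L M' p hp hpM
  have h2 := Fermat.Agent.ES.HECKE.AlongDegree25.finrankAlong_beta Qbar M' p hp hpM
  exact cL_normAlong_of_compat _ _ (cL_heckeBetaBar M' p L) (by rw [h1, h2])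
    (by rw [h1]; exact Nat.succ_pos p) f

end Fermat.Agent.T1B.Cmp38
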