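/-
T1B / brick CMP (helper38): **norms of elements of a base-changed fractional ideal, by local
generators** (pure algebra, Mathlib only).

Problem.  `I ⊆ F` a fractional ideal over the chart `A` (over a number field `L`), `h ∈ F'`, and the norm
`N(I) = h⁻¹ A'` is known ELEMENTWISE on `I` (norm formula on the `ℚ̄`-curve).  The elements one needs
are those of `Ê ⊗_L I` (`Ê ⊋ L`), which are SUMS `Σ eᵢ fᵢ`; the norm of a sum is not determined by the
norms of the summands.  Cure: local generators.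

Abstract setting (no domain/injectivity/finiteness hypotheses at all):
* `ι : R →+* E`, `ι' : R' →+* E'` ring homs into commutative rings (in the application fields `F̂`, `F̂'`;
  `R = Ê ⊗ B_j`, `R' = Ê ⊗ B_j'` or their integral versions with `ϖ` inverted);
* `NF : E →* E'` and `n : R → R'` with `NF (ι u) = ι' (n u)`  (field norm vs `projNorm`);
* `A'` a commutative ring with `j' : A' →+* R'`, `j : A' →+* R` and `NF (ι (j t)) = ι' (j' t) ^ d`
  (`A' = L ⊗ B_j'`, `d` = the degree);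
* `I : Set E` (the `L`-rational fractional ideal), `h : E'`.

`LocGen ι ι' NF j j' I h P'` : the local generator at the maximal ideal `P'` of `A'`:
  `f ∈ I`, `t ∉ P'`, `k` with  (gen) `∀ x ∈ I, ∃ c : R, ι (j t) * x = f * ι c`,
  (int) `∃ z, ι' (j' t) ^ k * (NF f * h) = ι' z`,  (inv) `∃ z, ι' (j' t) ^ k = NF f * h * ι' z`.

* `norm_mul_mem_of_locGen`     : `g ∈ span_R I` ⟹ `NF g * h ∈ ι' R'`;
* `norm_mul_inv_mem_of_locGen` : `h * h' = 1`, `γ * I ⊆ ι R` ⟹ `NF γ * h' ∈ ι' R'`.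
-/
import Mathlib

set_option autoImplicit false
set_option linter.unusedSectionVars false

namespace Fermat.Agent.T1B.Cmp38

section

variable {R R' E E' A' : Type*} [CommRing R] [CommRing R'] [CommRing E] [CommRing E'] [CommRing A']
  (ι : R →+* E) (ι' : R' →+* E') (NF : E →* E') (j : A' →+* R) (j' : A' →+* R')
  (I : Set E) (h : E')

/-- The local generator datum at a maximal ideal `P'` of `A'`. -/
def LocGen (P' : Ideal A') : Prop :=
  ∃ f ∈ I, ∃ t : A', t ∉ P' ∧ ∃ k : ℕ,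
    (∀ x ∈ I, ∃ c : R, ι (j t) * x = f * ι c) ∧
    (∃ z : R', ι' (j' t) ^ k * (NF f * h) = ι' z) ∧
    (∃ z : R', ι' (j' t) ^ k = NF f * h * ι' z)

/-- The denominator ideal of `y : E'` with respect to `ι' R'`, as an ideal of `A'`. -/
def denomIdeal (y : E') : Ideal A' where
  carrier := {c | ∃ z : R', ι' (j' c) * y = ι' z}
  add_mem' := by
    rintro a b ⟨za, ha⟩ ⟨zb, hb⟩
    exact ⟨za + zb, by rw [map_add, map_add, add_mul, ha, hb, map_add]⟩
  zero_mem' := ⟨0, by simp⟩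
  smul_mem' := by
    rintro a b ⟨zb, hb⟩
    exact ⟨j' a * zb, by rw [smul_eq_mul, map_mul, map_mul, mul_assoc, hb, map_mul]⟩

theorem mem_denomIdeal {y : E'} {c : A'} :
    c ∈ denomIdeal ι' j' y ↔ ∃ z : R', ι' (j' c) * y = ι' z := Iff.rfl

/-- If the denominator ideal lies in no maximal ideal, `y ∈ ι' R'`. -/
theorem mem_range_of_denomIdeal {y : E'}
    (H : ∀ P' : Ideal A', P'.IsMaximal → ∃ t ∈ denomIdeal ι' j' y, t ∉ P') :
    ∃ z : R', y = ι' z := by
  have htop : denomIdeal ι' j' y = ⊤ := by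
    by_contra hne
    obtain ⟨P', hP', hle⟩ := Ideal.exists_le_maximal _ hne
    obtain ⟨t, ht, htP⟩ := H P' hP'
    exact htP (hle ht)
  have h1 : (1 : A') ∈ denomIdeal ι' j' y := by rw [htop]; trivial
  obtain ⟨z, hz⟩ := h1
  exact ⟨z, by rw [← hz, map_one, map_one, one_mul]⟩

variable {ι ι' NF j j' I h}

/-- **Norms of elements of the base-changed fractional ideal.** -/
theorem norm_mul_mem_of_locGen (n : R → R') (hn : ∀ u : R, NF (ι u) = ι' (n u)) (d : ℕ)
    (hd : ∀ t : A', NF (ι (j t)) = ι' (j' t) ^ d)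
    (hLG : ∀ P' : Ideal A', P'.IsMaximal → LocGen ι ι' NF j j' I h P')
    {s : Type*} (S : Finset s) (a : s → R) (x : s → E) (hx : ∀ i ∈ S, x i ∈ I) :
    ∃ z : R', NF (∑ i ∈ S, ι (a i) * x i) * h = ι' z := by
  classical
  refine mem_range_of_denomIdeal ι' j' fun P' hP' => ?_
  obtain ⟨f, -, t, htP, k, hgen, ⟨z, hz⟩, -⟩ := hLG P' hP'
  -- `ι t * x i = f * ι (c i)`
  have hc : ∀ i : s, ∃ c : R, i ∈ S → ι (j t) * x i = f * ι c := by
    intro i
    by_cases hi : i ∈ S
    · obtain ⟨c, hc⟩ := hgen (x i) (hx i hi)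
      exact ⟨c, fun _ => hc⟩
    · exact ⟨0, fun h => absurd h hi⟩
  choose c hc using hc
  set u : R := ∑ i ∈ S, a i * c i with hu
  have h1 : ι (j t) * ∑ i ∈ S, ι (a i) * x i = f * ι u := by
    rw [hu, map_sum, Finset.mul_sum, Finset.mul_sum]
    refine Finset.sum_congr rfl fun i hi => ?_
    rw [map_mul, mul_left_comm, hc i hi]
    ring
  have h2 : ι' (j' t) ^ d * NF (∑ i ∈ S, ι (a i) * x i) = NF f * ι' (n u) := by
    rw [← hd t, ← map_mul, h1, map_mul, hn]
  refine ⟨t ^ (d + k), ⟨z * n u, ?_⟩, fun hmem => htP (hP'.isPrime.mem_of_pow_mem _ hmem)⟩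
  rw [map_pow, map_pow, pow_add, map_mul, ← hz]
  calc ι' (j' t) ^ d * ι' (j' t) ^ k * (NF (∑ i ∈ S, ι (a i) * x i) * h)
      = ι' (j' t) ^ k * (ι' (j' t) ^ d * NF (∑ i ∈ S, ι (a i) * x i) * h) := by ring
    _ = ι' (j' t) ^ k * (NF f * h) * ι' (n u) := by rw [h2]; ring

/-- **Norms of elements of the inverse of the base-changed fractional ideal.** -/
theorem norm_mul_inv_mem_of_locGen (n : R → R') (hn : ∀ u : R, NF (ι u) = ι' (n u))
    (hLG : ∀ P' : Ideal A', P'.IsMaximal → LocGen ι ι' NF j j' I h P')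
    {h' : E'} (hh : h * h' = 1) {γ : E} (hγ : ∀ x ∈ I, ∃ u : R, γ * x = ι u) :
    ∃ z : R', NF γ * h' = ι' z := by
  refine mem_range_of_denomIdeal ι' j' fun P' hP' => ?_
  obtain ⟨f, hfI, t, htP, k, -, -, ⟨z, hz⟩⟩ := hLG P' hP'
  obtain ⟨u, hu⟩ := hγ f hfI
  have h2 : NF γ * NF f = ι' (n u) := by rw [← map_mul, hu, hn]
  refine ⟨t ^ k, ⟨n u * z, ?_⟩, fun hmem => htP (hP'.isPrime.mem_of_pow_mem _ hmem)⟩
  rw [map_pow, map_pow, hz, map_mul, ← h2]
  calc NF f * h * ι' z * (NF γ * h') = NF γ * NF f * ι' z * (h * h') := by ring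
    _ = NF γ * NF f * ι' z := by rw [hh, mul_one]

end

end Fermat.Agent.T1B.Cmp38
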