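/-
T1B / brick CMP (helper38), part (2b), divisor side: **the norm formula, place by place, with
inequalities** — "the norm of the fractional ideal `𝒪(D)(U)` is `𝒪(φ_* D)(U')`", in the Prelude's
vocabulary (`Divisor.pushforward`, `PushforwardNormFormula`, `pushforwardAlong`, `NormFormulaAlong`).

Instance form (`[Algebra F F']`):
* `pushforward_apply_le`   : `(∀ w ∣ v, D w ≤ E w) → (φ_* D) v ≤ (φ_* E) v`  (local monotonicity);
* `pushforward_apply_eq`   : `(∀ w ∣ v, D w = E w) → (φ_* D) v = (φ_* E) v`;
* `pushforward_le_ord_norm`: `(∀ w ∣ v, D w ≤ ord_w f) → (φ_* D) v ≤ ord_v (N f)`;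
* `ord_norm_le_pushforward`: `(∀ w ∣ v, ord_w f ≤ D w) → ord_v (N f) ≤ (φ_* D) v`.
`Along` form (`φ : F →ₐ[K] F'`): `pushforwardAlong_le_ord_norm`, `ord_norm_le_pushforwardAlong`,
`pushforwardAlong_eq_ord_norm`.
-/
import Mathlib
import Fermat.Prelude.Def_AlgebraicCurve_Correspondence

set_option autoImplicit false
set_option linter.style.haveILetI false
set_option linter.unusedSectionVars false

open AlgebraicCurve

noncomputable section

namespace Fermat.Agent.T1B.Cmp38

section Instance

variable {K F F' : Type*} [Field K] [Field F] [Field F']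
  [Algebra K F] [Algebra K F'] [Algebra F F'] [IsScalarTower K F F'] [Algebra.IsIntegral F F']

/-- **Local monotonicity of the push-forward.** -/
theorem pushforward_apply_le (D E : Divisor K F') (v : Place K F)
    (h : ∀ w : Place K F', w.restrict F = v → D w ≤ E w) :
    Divisor.pushforward F D v ≤ Divisor.pushforward F E v := by
  classical
  have key : 0 ≤ Divisor.pushforward F (E - D) v := by
    rw [Divisor.pushforward_apply]
    refine Finset.sum_nonneg fun w _ => ?_
    split_ifs with hw
    · refine mul_nonneg ?_ (Int.natCast_nonneg _)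
      rw [Finsupp.sub_apply]
      exact sub_nonneg.mpr (h w hw)
    · exact le_rfl
  rw [map_sub, Finsupp.sub_apply] at key
  exact sub_nonneg.mp key

theorem pushforward_apply_eq (D E : Divisor K F') (v : Place K F)
    (h : ∀ w : Place K F', w.restrict F = v → D w = E w) :
    Divisor.pushforward F D v = Divisor.pushforward F E v :=
  le_antisymm (pushforward_apply_le D E v fun w hw => (h w hw).le)
    (pushforward_apply_le E D v fun w hw => (h w hw).ge)

variable [Module.Finite F F'] [HasPrincipalDivisors K F']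

/-- `(∀ w ∣ v, D w ≤ ord_w f) → (φ_* D) v ≤ ord_v (N f)`. -/
theorem pushforward_le_ord_norm (H : Divisor.PushforwardNormFormula K F F') {f : F'} (hf : f ≠ 0)
    (D : Divisor K F') (v : Place K F)
    (h : ∀ w : Place K F', w.restrict F = v → D w ≤ w.ord f) :
    Divisor.pushforward F D v ≤ v.ord (Algebra.norm F f) := by
  obtain ⟨E, hE, -⟩ := HasPrincipalDivisors.exists_divisor (K := K) f hf
  rw [← H f hf E hE v]
  exact pushforward_apply_le D E v fun w hw => by rw [hE w]; exact h w hw

/-- `(∀ w ∣ v, ord_w f ≤ D w) → ord_v (N f) ≤ (φ_* D) v`. -/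
theorem ord_norm_le_pushforward (H : Divisor.PushforwardNormFormula K F F') {f : F'} (hf : f ≠ 0)
    (D : Divisor K F') (v : Place K F)
    (h : ∀ w : Place K F', w.restrict F = v → w.ord f ≤ D w) :
    v.ord (Algebra.norm F f) ≤ Divisor.pushforward F D v := by
  obtain ⟨E, hE, -⟩ := HasPrincipalDivisors.exists_divisor (K := K) f hf
  rw [← H f hf E hE v]
  exact pushforward_apply_le E D v fun w hw => by rw [hE w]; exact h w hw

/-- `(∀ w ∣ v, D w = ord_w f) → (φ_* D) v = ord_v (N f)` (the norm formula only needs `D = div f`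
above `v`). -/
theorem pushforward_eq_ord_norm_of_forall (H : Divisor.PushforwardNormFormula K F F') {f : F'}
    (hf : f ≠ 0) (D : Divisor K F') (v : Place K F)
    (h : ∀ w : Place K F', w.restrict F = v → D w = w.ord f) :
    Divisor.pushforward F D v = v.ord (Algebra.norm F f) :=
  le_antisymm (pushforward_le_ord_norm H hf D v fun w hw => (h w hw).le)
    (ord_norm_le_pushforward H hf D v fun w hw => (h w hw).ge)

end Instance

section Along

variable {K F F' : Type*} [Field K] [Field F] [Field F'] [Algebra K F] [Algebra K F']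
  (φ : F →ₐ[K] F') (hφ : φ.toRingHom.IsIntegral)

/-- Local monotonicity, `Along` form.  (Below, the norm along `φ` is written
`letI := algebraAlong φ; Algebra.norm F f`, the unfolding of `BaseChange19.normAlong φ f`, so that this
file only depends on the Prelude.) -/
theorem pushforwardAlong_apply_le (D E : Divisor K F') (v : Place K F)
    (h : ∀ w : Place K F', w.restrictAlong φ hφ = v → D w ≤ E w) :
    Divisor.pushforwardAlong φ hφ D v ≤ Divisor.pushforwardAlong φ hφ E v := by
  letI := algebraAlong φ
  haveI := isScalarTower_along φ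
  haveI := isIntegral_along φ hφ
  exact pushforward_apply_le D E v h

variable [HasPrincipalDivisors K F']

/-- `(∀ w ∣ v, D w ≤ ord_w f) → (φ_* D) v ≤ ord_v (N_φ f)`. -/
theorem pushforwardAlong_le_ord_norm (hfin : FiniteAlong K φ) (hN : NormFormulaAlong K φ hfin)
    {f : F'} (hf : f ≠ 0) (D : Divisor K F') (v : Place K F)
    (h : ∀ w : Place K F', w.restrictAlong φ hφ = v → D w ≤ w.ord f) :
    Divisor.pushforwardAlong φ hφ D v ≤
      v.ord (letI := algebraAlong φ; Algebra.norm F f) := by
  letI := algebraAlong φ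
  haveI := isScalarTower_along φ
  haveI := isIntegral_along φ hφ
  haveI : Module.Finite F F' := hfin
  exact pushforward_le_ord_norm hN hf D v h

/-- `(∀ w ∣ v, ord_w f ≤ D w) → ord_v (N_φ f) ≤ (φ_* D) v`. -/
theorem ord_norm_le_pushforwardAlong (hfin : FiniteAlong K φ) (hN : NormFormulaAlong K φ hfin)
    {f : F'} (hf : f ≠ 0) (D : Divisor K F') (v : Place K F)
    (h : ∀ w : Place K F', w.restrictAlong φ hφ = v → w.ord f ≤ D w) :
    v.ord (letI := algebraAlong φ; Algebra.norm F f) ≤
      Divisor.pushforwardAlong φ hφ D v := by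
  letI := algebraAlong φ
  haveI := isScalarTower_along φ
  haveI := isIntegral_along φ hφ
  haveI : Module.Finite F F' := hfin
  exact ord_norm_le_pushforward hN hf D v h

/-- `(∀ w ∣ v, D w = ord_w f) → (φ_* D) v = ord_v (N_φ f)`. -/
theorem pushforwardAlong_eq_ord_norm_of_forall (hfin : FiniteAlong K φ)
    (hN : NormFormulaAlong K φ hfin) {f : F'} (hf : f ≠ 0) (D : Divisor K F') (v : Place K F)
    (h : ∀ w : Place K F', w.restrictAlong φ hφ = v → D w = w.ord f) :
    Divisor.pushforwardAlong φ hφ D v = v.ord (letI := algebraAlong φ; Algebra.norm F f) :=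
  le_antisymm (pushforwardAlong_le_ord_norm φ hφ hfin hN hf D v fun w hw => (h w hw).le)
    (ord_norm_le_pushforwardAlong φ hφ hfin hN hf D v fun w hw => (h w hw).ge)

/-- **The fractional-ideal form.**  If `φ_* D = div h` (`h ≠ 0`), then for every place `v` of `F`
and every `f ≠ 0` with `div f ≥ -D` above `v`, the function `N_φ f · h` is regular at `v`. -/
theorem ord_norm_mul_nonneg (hfin : FiniteAlong K φ) (hN : NormFormulaAlong K φ hfin)
    {D : Divisor K F'} {h : F} (hh : h ≠ 0)
    (hD : ∀ v : Place K F, Divisor.pushforwardAlong φ hφ D v = v.ord h)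
    {f : F'} (hf : f ≠ 0) (v : Place K F)
    (hv : ∀ w : Place K F', w.restrictAlong φ hφ = v → -D w ≤ w.ord f) :
    0 ≤ v.ord ((letI := algebraAlong φ; Algebra.norm F f) * h) := by
  have hNf : (letI := algebraAlong φ; Algebra.norm F f) ≠ 0 := by
    letI := algebraAlong φ
    haveI : Module.Finite F F' := hfin
    exact Algebra.norm_ne_zero_iff.mpr hf
  have h1 := pushforwardAlong_le_ord_norm φ hφ hfin hN hf (-D) v
    (fun w hw => by rw [Finsupp.neg_apply]; exact hv w hw)
  rw [map_neg, Finsupp.neg_apply, hD v] at h1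
  rw [v.ord_mul hNf hh]
  linarith

/-- **The inverse fractional-ideal form.**  If `φ_* D = div h`, then for every `f ≠ 0` with
`div f ≥ D` above `v`, the function `N_φ f · h⁻¹` is regular at `v`. -/
theorem ord_norm_mul_inv_nonneg (hfin : FiniteAlong K φ) (hN : NormFormulaAlong K φ hfin)
    {D : Divisor K F'} {h : F} (hh : h ≠ 0)
    (hD : ∀ v : Place K F, Divisor.pushforwardAlong φ hφ D v = v.ord h)
    {f : F'} (hf : f ≠ 0) (v : Place K F)
    (hv : ∀ w : Place K F', w.restrictAlong φ hφ = v → D w ≤ w.ord f) :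
    0 ≤ v.ord ((letI := algebraAlong φ; Algebra.norm F f) * h⁻¹) := by
  have hNf : (letI := algebraAlong φ; Algebra.norm F f) ≠ 0 := by
    letI := algebraAlong φ
    haveI : Module.Finite F F' := hfin
    exact Algebra.norm_ne_zero_iff.mpr hf
  have h1 := pushforwardAlong_le_ord_norm φ hφ hfin hN hf D v hv
  rw [hD v] at h1
  rw [v.ord_mul hNf (inv_ne_zero hh), v.ord_inv]
  linarith

end Along

end Fermat.Agent.T1B.Cmp38
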