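/-
T1B / brick CMP (helper38), part (2b), divisor side, continued: **what `π_i x = 0` means on a divisor**.

Generic (`φ : F →ₐ[K] F'` finite with the norm formula, helper21's `Degen21.Pic.pic0Push`):
* `exists_isDiv_of_pic0Push_eq_zero` : `φ_* [D] = 0` ⟹ `∃ h ≠ 0, φ_* D = div h`;
* `exists_frac_of_pic0Push_eq_zero`  : … and then, place by place (`v` a place of `F`):
    `div f ≥ -D` above `v` ⟹ `N_φ f · h` regular at `v`;  `div f ≥ D` above `v` ⟹ `N_φ f · h⁻¹`
    regular at `v`   ("the norm of the fractional ideal `𝒪(D)` is `h⁻¹ 𝒪`");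
* `exists_norm_eq_of_pic0Push_eq_zero` : `φ_* [D] = 0`, `m D = div f` ⟹ `div (N_φ f) = m · div h`.
Modular (helper21's `Degen21.Level.piOne`, `piTwo : JZero (N * p) →+ JZero N`):
* `exists_frac_of_piOne_eq_zero`, `exists_frac_of_piTwo_eq_zero`.
-/
import Mathlib
import Fermat.Agent.T1B.Cmp38.PushOrd
import Fermat.Agent.T1B.Degen21.Level

set_option autoImplicit false
set_option linter.style.haveILetI false
set_option linter.unusedSectionVars false

open AlgebraicCurve ModularCurve

noncomputable section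

namespace Fermat.Agent.T1B.Cmp38

open Fermat.Agent.ES.HECKE Fermat.Agent.ES.HECKE.LevelPullback12 Fermat.Agent.T1B.DivNorm27
  Fermat.Agent.T1B.Degen21.Pic Fermat.Agent.T1B.Degen21.Level Fermat.Agent.RED.TOP
  Fermat.Agent.ES.HECKE.InputsMain19
open Fermat.Agent.ES.HECKE.BaseChange19 (normAlong)

section Generic

variable {K F F' : Type*} [Field K] [Field F] [Field F'] [Algebra K F] [Algebra K F']
  (φ : F →ₐ[K] F') (hφ : φ.toRingHom.IsIntegral) (hfin : FiniteAlong K φ)
  (hN : NormFormulaAlong K φ hfin)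

/-- `φ_* [D] = 0` in `Pic⁰` ⟹ `φ_* D` is the divisor of a function. -/
theorem exists_isDiv_of_pic0Push_eq_zero (D : Divisor.degZero (K := K) (F := F'))
    (h0 : pic0Push φ hφ hfin hN (Pic0.mk D) = 0) :
    ∃ h : F, h ≠ 0 ∧
      ∀ v : Place K F, Divisor.pushforwardAlong φ hφ (D : Divisor K F') v = v.ord h := by
  rw [pic0Push_mk] at h0
  have h2 := (QuotientAddGroup.eq_zero_iff _).mp h0
  rw [AddSubgroup.mem_addSubgroupOf] at h2
  obtain ⟨g, hg0, hgD⟩ := h2
  exact ⟨g, hg0, hgD⟩

variable [HasPrincipalDivisors K F']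

/-- **The fractional-ideal form of `φ_* [D] = 0`.** -/
theorem exists_frac_of_pic0Push_eq_zero (D : Divisor.degZero (K := K) (F := F'))
    (h0 : pic0Push φ hφ hfin hN (Pic0.mk D) = 0) :
    ∃ h : F, h ≠ 0 ∧
      (∀ v : Place K F, Divisor.pushforwardAlong φ hφ (D : Divisor K F') v = v.ord h) ∧
      (∀ f : F', f ≠ 0 → ∀ v : Place K F,
        (∀ w : Place K F', w.restrictAlong φ hφ = v → -(D : Divisor K F') w ≤ w.ord f) →
          0 ≤ v.ord (normAlong φ f * h)) ∧
      (∀ f : F', f ≠ 0 → ∀ v : Place K F,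
        (∀ w : Place K F', w.restrictAlong φ hφ = v → (D : Divisor K F') w ≤ w.ord f) →
          0 ≤ v.ord (normAlong φ f * h⁻¹)) := by
  obtain ⟨h, hh, hD⟩ := exists_isDiv_of_pic0Push_eq_zero φ hφ hfin hN D h0
  exact ⟨h, hh, hD, fun f hf v hv => ord_norm_mul_nonneg φ hφ hfin hN hh hD hf v hv,
    fun f hf v hv => ord_norm_mul_inv_nonneg φ hφ hfin hN hh hD hf v hv⟩

/-- `φ_* [D] = 0`, `m D = div f` ⟹ `div (N_φ f) = m · div h` where `φ_* D = div h`. -/
theorem exists_norm_eq_of_pic0Push_eq_zero (D : Divisor.degZero (K := K) (F := F'))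
    (h0 : pic0Push φ hφ hfin hN (Pic0.mk D) = 0) {m : ℤ} {f : F'} (hf : f ≠ 0)
    (hfD : ∀ w : Place K F', m * (D : Divisor K F') w = w.ord f) :
    ∃ h : F, h ≠ 0 ∧
      (∀ v : Place K F, Divisor.pushforwardAlong φ hφ (D : Divisor K F') v = v.ord h) ∧
      ∀ v : Place K F, v.ord (normAlong φ f) = m * v.ord h := by
  obtain ⟨h, hh, hD⟩ := exists_isDiv_of_pic0Push_eq_zero φ hφ hfin hN D h0
  refine ⟨h, hh, hD, fun v => ?_⟩
  have h1 := pushforwardAlong_eq_ord_norm_of_forall φ hφ hfin hN hf (m • (D : Divisor K F')) v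
    (fun w _ => by rw [Finsupp.smul_apply, smul_eq_mul]; exact hfD w)
  rw [map_zsmul, Finsupp.smul_apply, smul_eq_mul, hD v] at h1
  exact h1.symm

end Generic

section Modular

local notation "Qb" => AlgebraicClosure ℚ

variable (N p : ℕ) [NeZero N] [NeZero p] (hp : p.Prime)

/-- **`π₁ [D] = 0` in fractional-ideal form** (`π₁ = (α_p)_*`). -/
theorem exists_frac_of_piOne_eq_zero
    (D : Divisor.degZero (K := Qb) (F := modularFunctionFieldBar (N * p)))
    (h0 : piOne N p hp (Pic0.mk D) = 0) :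
    ∃ h : modularFunctionFieldBar N, h ≠ 0 ∧
      (∀ v : Place Qb (modularFunctionFieldBar N),
        Divisor.pushforwardAlong (heckeAlphaBar Qb N p) (heckeAlphaBarIntegral_all N p hp)
          (D : Divisor Qb (modularFunctionFieldBar (N * p))) v = v.ord h) ∧
      (∀ f : modularFunctionFieldBar (N * p), f ≠ 0 → ∀ v : Place Qb (modularFunctionFieldBar N),
        (∀ w : Place Qb (modularFunctionFieldBar (N * p)),
          w.restrictAlong (heckeAlphaBar Qb N p) (heckeAlphaBarIntegral_all N p hp) = v →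
            -(D : Divisor Qb (modularFunctionFieldBar (N * p))) w ≤ w.ord f) →
          0 ≤ v.ord (normAlong (heckeAlphaBar Qb N p) f * h)) ∧
      (∀ f : modularFunctionFieldBar (N * p), f ≠ 0 → ∀ v : Place Qb (modularFunctionFieldBar N),
        (∀ w : Place Qb (modularFunctionFieldBar (N * p)),
          w.restrictAlong (heckeAlphaBar Qb N p) (heckeAlphaBarIntegral_all N p hp) = v →
            (D : Divisor Qb (modularFunctionFieldBar (N * p))) w ≤ w.ord f) →
          0 ≤ v.ord (normAlong (heckeAlphaBar Qb N p) f * h⁻¹)) := by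
  haveI := hasPrincipalDivisors_level N p
  exact exists_frac_of_pic0Push_eq_zero (heckeAlphaBar Qb N p) (heckeAlphaBarIntegral_all N p hp)
    (finiteAlong_alpha_all N p hp) (normFormulaAlong_alpha_all N p hp) D h0

/-- **`π₂ [D] = 0` in fractional-ideal form** (`π₂ = (β_p)_*`). -/
theorem exists_frac_of_piTwo_eq_zero
    (D : Divisor.degZero (K := Qb) (F := modularFunctionFieldBar (N * p)))
    (h0 : piTwo N p hp (Pic0.mk D) = 0) :
    ∃ h : modularFunctionFieldBar N, h ≠ 0 ∧
      (∀ v : Place Qb (modularFunctionFieldBar N),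
        Divisor.pushforwardAlong (heckeBetaBar Qb N p) (heckeBetaBarIntegral_all N p hp)
          (D : Divisor Qb (modularFunctionFieldBar (N * p))) v = v.ord h) ∧
      (∀ f : modularFunctionFieldBar (N * p), f ≠ 0 → ∀ v : Place Qb (modularFunctionFieldBar N),
        (∀ w : Place Qb (modularFunctionFieldBar (N * p)),
          w.restrictAlong (heckeBetaBar Qb N p) (heckeBetaBarIntegral_all N p hp) = v →
            -(D : Divisor Qb (modularFunctionFieldBar (N * p))) w ≤ w.ord f) →
          0 ≤ v.ord (normAlong (heckeBetaBar Qb N p) f * h)) ∧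
      (∀ f : modularFunctionFieldBar (N * p), f ≠ 0 → ∀ v : Place Qb (modularFunctionFieldBar N),
        (∀ w : Place Qb (modularFunctionFieldBar (N * p)),
          w.restrictAlong (heckeBetaBar Qb N p) (heckeBetaBarIntegral_all N p hp) = v →
            (D : Divisor Qb (modularFunctionFieldBar (N * p))) w ≤ w.ord f) →
          0 ≤ v.ord (normAlong (heckeBetaBar Qb N p) f * h⁻¹)) := by
  haveI := hasPrincipalDivisors_level N p
  exact exists_frac_of_pic0Push_eq_zero (heckeBetaBar Qb N p) (heckeBetaBarIntegral_all N p hp)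
    (finiteAlong_beta_all N p hp) (normFormulaAlong_beta_all N p hp) D h0

end Modular

end Fermat.Agent.T1B.Cmp38
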