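/-
T1B (S44), cell TORIC50, brick CMP, slice (2a) VERTICAL (helper38).  Mathlib only.

`R` a domain, `ϖ ∈ R` a prime element (e.g. `R = S'_j` a chart of the smooth model over a DVR with
uniformiser `ϖ` and integral special fibre).  Then every unit of `R[1/ϖ]` is `ϖ^k` times a unit of
`R`.  (No normality or noetherianity is needed: only that `ϖ` is a prime element.)

* `exists_pow_mul_of_mul_eq_pow`      : `a * b = ϖ ^ n` ⟹ `a = ϖ ^ e * u`, `u` a unit;
* `exists_zpow_mul_unit`              : units of `A = R[1/ϖ]` (any `IsLocalization.Away ϖ A`);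
* `exists_zpow_mul_unit_fractionRing` : the same inside a field `F ⊇ R`, for `c ∈ F` such that
                                        `c` and `c⁻¹` both lie in `R[1/ϖ]`;
* `prime_algebraMap_of_away`          : `ϖ` stays prime in `R[1/t]` when `ϖ ∤ t ^ n` for all `n`.
-/
import Mathlib

set_option autoImplicit false

namespace Fermat.Agent.T1B.Cmp38

variable {R : Type*} [CommRing R] [IsDomain R]

/-- In a domain, if `a * b` is a power of a prime element `ϖ`, then `a` is a power of `ϖ` times a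
unit. -/
theorem exists_pow_mul_of_mul_eq_pow {ϖ : R} (hϖ : Prime ϖ) :
    ∀ (n : ℕ) (a b : R), a * b = ϖ ^ n → ∃ (e : ℕ) (u : Rˣ), e ≤ n ∧ a = ϖ ^ e * u := by
  intro n
  induction n with
  | zero =>
    intro a b hab
    rw [pow_zero] at hab
    exact ⟨0, ⟨a, b, hab, by rw [mul_comm]; exact hab⟩, le_rfl, by simp⟩
  | succ n ih =>
    intro a b hab
    have hdvd : ϖ ∣ a * b := by rw [hab, pow_succ]; exact dvd_mul_left _ _
    rcases hϖ.dvd_or_dvd hdvd with ⟨a', rfl⟩ | ⟨b', rfl⟩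
    · have h1 : a' * b = ϖ ^ n := by
        have : ϖ * (a' * b) = ϖ * ϖ ^ n := by rw [← mul_assoc, hab, pow_succ, mul_comm]
        exact mul_left_cancel₀ hϖ.ne_zero this
      obtain ⟨e, u, he, hu⟩ := ih a' b h1
      exact ⟨e + 1, u, Nat.succ_le_succ he, by rw [hu, pow_succ]; ring⟩
    · have h1 : a * b' = ϖ ^ n := by
        have : ϖ * (a * b') = ϖ * ϖ ^ n := by
          calc ϖ * (a * b') = a * (ϖ * b') := by ring
            _ = ϖ ^ (n + 1) := hab
            _ = ϖ * ϖ ^ n := by rw [pow_succ, mul_comm]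
        exact mul_left_cancel₀ hϖ.ne_zero this
      obtain ⟨e, u, he, hu⟩ := ih a b' h1
      exact ⟨e, u, he.trans (Nat.le_succ n), hu⟩

/-- **Vertical lemma.**  If `ϖ` is a prime element of the domain `R` and `A = R[1/ϖ]`, every unit
of `A` is `ϖ ^ k * w` with `k : ℤ` and `w` a unit of `R`. -/
theorem exists_zpow_mul_unit {ϖ : R} (hϖ : Prime ϖ) {A : Type*} [CommRing A] [Algebra R A]
    [IsLocalization.Away ϖ A] (c : Aˣ) :
    ∃ (k : ℤ) (w : Rˣ),
      c = (IsUnit.unit (IsLocalization.Away.algebraMap_isUnit (S := A) ϖ)) ^ k *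
        Units.map (algebraMap R A).toMonoidHom w := by
  have hinj : Function.Injective (algebraMap R A) :=
    IsLocalization.injective A (powers_le_nonZeroDivisors_of_noZeroDivisors hϖ.ne_zero)
  set π : Aˣ := IsUnit.unit (IsLocalization.Away.algebraMap_isUnit (S := A) ϖ) with hπ
  have hπv : (π : A) = algebraMap R A ϖ := rfl
  -- write `c = a / ϖ^i`, `c⁻¹ = b / ϖ^j`
  obtain ⟨i, a, hi⟩ := IsLocalization.Away.surj ϖ (c : A)
  obtain ⟨j, b, hj⟩ := IsLocalization.Away.surj ϖ ((c⁻¹ : Aˣ) : A)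
  have hab : a * b = ϖ ^ (i + j) := by
    apply hinj
    rw [map_mul, ← hi, ← hj, map_pow, pow_add]
    have : (c : A) * ((c⁻¹ : Aˣ) : A) = 1 := by rw [← Units.val_mul, mul_inv_cancel, Units.val_one]
    calc (c : A) * algebraMap R A ϖ ^ i * (((c⁻¹ : Aˣ) : A) * algebraMap R A ϖ ^ j)
        = ((c : A) * ((c⁻¹ : Aˣ) : A)) * (algebraMap R A ϖ ^ i * algebraMap R A ϖ ^ j) := by ring
      _ = algebraMap R A ϖ ^ i * algebraMap R A ϖ ^ j := by rw [this, one_mul]
  obtain ⟨e, u, -, hu⟩ := exists_pow_mul_of_mul_eq_pow hϖ (i + j) a b hab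
  refine ⟨(e : ℤ) - i, u, ?_⟩
  apply Units.ext
  have h1 : (c : A) * (π : A) ^ i = (π : A) ^ e * algebraMap R A u := by
    rw [hπv, hi, hu, map_mul, map_pow]
  have h2 : (c : A) = (π : A) ^ e * algebraMap R A u * ((π ^ i)⁻¹ : Aˣ) := by
    rw [← h1, mul_assoc, ← Units.val_pow_eq_pow_val, ← Units.val_mul, mul_inv_cancel,
      Units.val_one, mul_one]
  rw [h2, zpow_sub, zpow_natCast, zpow_natCast]
  simp only [Units.val_mul, Units.val_pow_eq_pow_val, Units.coe_map, RingHom.toMonoidHom_eq_coe,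
    MonoidHom.coe_coe]
  ring


/-- **Vertical lemma, field form.**  `R ⊆ F` a domain in a field, `ϖ ∈ R` a prime element.  If
`c ∈ F` is such that `c` and `c⁻¹` both lie in `R[1/ϖ] ⊆ F`, then `c = ϖ ^ k * w` with `k : ℤ` and
`w` a unit of `R`. -/
theorem exists_zpow_mul_unit_of_field {F : Type*} [Field F] [Algebra R F]
    (hinj : Function.Injective (algebraMap R F)) {ϖ : R} (hϖ : Prime ϖ) {c : F} (hc : c ≠ 0)
    (h1 : ∃ (i : ℕ) (a : R), c * algebraMap R F ϖ ^ i = algebraMap R F a)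
    (h2 : ∃ (j : ℕ) (b : R), c⁻¹ * algebraMap R F ϖ ^ j = algebraMap R F b) :
    ∃ (k : ℤ) (w : Rˣ), c = algebraMap R F ϖ ^ k * algebraMap R F w := by
  obtain ⟨i, a, hi⟩ := h1
  obtain ⟨j, b, hj⟩ := h2
  have hπ0 : algebraMap R F ϖ ≠ 0 := fun h => hϖ.ne_zero (hinj (by rw [h, map_zero]))
  have hab : a * b = ϖ ^ (i + j) := by
    apply hinj
    rw [map_mul, ← hi, ← hj, map_pow, pow_add]
    calc c * algebraMap R F ϖ ^ i * (c⁻¹ * algebraMap R F ϖ ^ j)
        = (c * c⁻¹) * (algebraMap R F ϖ ^ i * algebraMap R F ϖ ^ j) := by ring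
      _ = algebraMap R F ϖ ^ i * algebraMap R F ϖ ^ j := by rw [mul_inv_cancel₀ hc, one_mul]
  obtain ⟨e, u, -, hu⟩ := exists_pow_mul_of_mul_eq_pow hϖ (i + j) a b hab
  refine ⟨(e : ℤ) - i, u, ?_⟩
  have h3 : c * algebraMap R F ϖ ^ i = algebraMap R F ϖ ^ e * algebraMap R F u := by
    rw [hi, hu, map_mul, map_pow]
  rw [zpow_sub₀ hπ0, zpow_natCast, zpow_natCast, div_mul_eq_mul_div, ← h3,
    mul_div_assoc, div_self (pow_ne_zero i hπ0), mul_one]

/-- `ϖ` stays a prime element in `R[1/t]` provided `ϖ` divides no power of `t`. -/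
theorem prime_algebraMap_of_away {ϖ t : R} (hϖ : Prime ϖ) (ht : ∀ n : ℕ, ¬ ϖ ∣ t ^ n)
    {B : Type*} [CommRing B] [Algebra R B] [IsLocalization.Away t B] :
    Prime (algebraMap R B ϖ) := by
  have hdisj : Disjoint (Submonoid.powers t : Set R) (Ideal.span {ϖ} : Ideal R) := by
    rw [Set.disjoint_left]
    rintro x ⟨n, rfl⟩ hx
    exact ht n (Ideal.mem_span_singleton.mp hx)
  have hp : (Ideal.span {ϖ} : Ideal R).IsPrime :=
    (Ideal.span_singleton_prime hϖ.ne_zero).mpr hϖ
  have hmap : (Ideal.map (algebraMap R B) (Ideal.span {ϖ})).IsPrime :=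
    IsLocalization.isPrime_of_isPrime_disjoint (Submonoid.powers t) B _ hp hdisj
  rw [Ideal.map_span, Set.image_singleton] at hmap
  have hne : algebraMap R B ϖ ≠ 0 := by
    have ht0 : t ≠ 0 := by
      rintro rfl
      exact ht 1 (by rw [pow_one]; exact dvd_zero _)
    have hinj : Function.Injective (algebraMap R B) :=
      IsLocalization.injective B (powers_le_nonZeroDivisors_of_noZeroDivisors ht0)
    exact fun h => hϖ.ne_zero (hinj (by rw [h, map_zero]))
  exact (Ideal.span_singleton_prime hne).mp hmap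

end Fermat.Agent.T1B.Cmp38
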