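/-
T1B / brick CMP (helper38): **(X-LP), generic core** — "the norm of the fractional ideal pair of a line pair
`P` killed by a degeneracy push-forward is principal", in the `Dict59` vocabulary (line pairs over a
number field `L`, places on the `ℚ̄`-curve).

`ψ_L : L·F_{M'} → L·F_N`, `ψ̄ : ℚ̄·F_{M'} → ℚ̄·F_N` (`α` or `β`), `t`, `t'` coordinates, `P : LinePair L t`.
Inputs:
* (1)+(2) `ψ̄_* (divL P) = div g`, `g ≠ 0` (from `π_i [P] = 0`) and its descent `h ∈ L·F_{M'}`,
  `ord_v (cL h) = ord_v g` (helper67's `Descent`);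
* (3) `cL (N_{ψ_L} f) = N_{ψ̄} (cL f)` (`NormCL`);
* (5) the order bounds on `P.I_j` and on the inverse ideals (helper67's `OrdBound`);
* (CC) chart compatibility: all places above `U_j'` lie in `U_j`.
Output `xlp_core`: for all `f`,
  `f ∈ P.I_j → N f * h ∈ C_j(t')`   and   `f • P.I_j ⊆ C_j(t) → N f * h⁻¹ ∈ C_j(t')`   (`j = 0, 1`).
Steps (4) (`PushOrd`, place by place) and (6) (`Dict59.mem_of_ord_ge`: regular on `U_j'` ⇒ in the chart)
are done here.
-/
import Mathlib
import Fermat.Agent.T1.Dict59.Inj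
import Fermat.Agent.ES.HECKE.BaseChange19
import Fermat.Agent.T1B.Cmp38.PushOrd

set_option autoImplicit false
set_option linter.unusedSectionVars false
set_option linter.style.haveILetI false
set_option synthInstance.maxHeartbeats 400000
set_option maxHeartbeats 1000000

open HahnSeries AlgebraicCurve ModularCurve IntermediateField
open Fermat.Agent.RED.Interface4 Fermat.Agent.X0.FF Fermat.Agent.T1.Dict59
open Fermat.Agent.ES.HECKE.BaseChange19 (normAlong)

noncomputable section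

namespace Fermat.Agent.T1B.Cmp38

/-! ### (6): regular on the chart ⇒ in the chart ring -/

section Six

variable {M : ℕ} [NeZero M] {L : IntermediateField ℚ Qbar}

/-- A function of `L·F_M` which is regular at all places of the `ℚ̄`-curve where `t` is regular lies in
the chart `C0(L)(t)`. -/
theorem mem_C0_of_ord_nonneg {t : FK M L} (ht : IsCoord M t) (z : FK M L)
    (hz : ∀ v : Place Qbar (Fbar M), cL M L t ∈ v.toValuationSubring → 0 ≤ v.ord (cL M L z)) :
    z ∈ C0 (K := L) t := by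
  have h1 : z ∈ Submodule.span (C0 (K := L) t) ({1} : Set (FK M L)) := by
    refine mem_of_ord_ge ht _ (Submodule.fg_span_singleton 1) ?_ z fun w hw =>
      ⟨1, Submodule.subset_span rfl, one_ne_zero, ?_⟩
    · intro h0
      have : (1 : FK M L) ∈ Submodule.span (C0 (K := L) t) ({1} : Set (FK M L)) :=
        Submodule.subset_span rfl
      rw [h0, Submodule.mem_bot] at this
      exact one_ne_zero this
    · rw [map_one, Place.ord_one]
      exact hz w hw
  obtain ⟨c, hc⟩ := Submodule.mem_span_singleton.mp h1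
  rw [← hc]
  show (c : FK M L) * 1 ∈ C0 (K := L) t
  rw [mul_one]
  exact c.2

/-- The same for chart `1`. -/
theorem mem_C1_of_ord_nonneg {t : FK M L} (ht : IsCoord M t) (z : FK M L)
    (hz : ∀ v : Place Qbar (Fbar M), (cL M L t)⁻¹ ∈ v.toValuationSubring →
      0 ≤ v.ord (cL M L z)) : z ∈ C1 (K := L) t := by
  have hinv : IsCoord M t⁻¹ := IsGen.inv ht
  refine mem_C0_of_ord_nonneg hinv z fun v hv => hz v ?_
  rwa [map_inv₀] at hv

end Six

/-! ### the core -/

section Core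

variable {M' N : ℕ} [NeZero M'] [NeZero N] {L : IntermediateField ℚ Qbar}
  (ψL : FK M' L →ₐ[↥L] FK N L) (ψb : Fbar M' →ₐ[Qbar] Fbar N)
  (hψb : ψb.toRingHom.IsIntegral) (hfin : FiniteAlong Qbar ψb)
  (hN : NormFormulaAlong Qbar ψb hfin) [HasPrincipalDivisors Qbar (Fbar N)]

include hfin in
/-- the norm of a nonzero function is nonzero. -/
theorem normAlong_ne_zero' {y : Fbar N} (hy : y ≠ 0) : normAlong ψb y ≠ 0 := by
  letI := algebraAlong ψb
  haveI : Module.Finite (Fbar M') (Fbar N) := hfin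
  exact Algebra.norm_ne_zero_iff.mpr hy

include hfin in
theorem normAlong_zero' : normAlong ψb (0 : Fbar N) = 0 := by
  letI := algebraAlong ψb
  haveI : Module.Finite (Fbar M') (Fbar N) := hfin
  exact Algebra.norm_zero

include hfin hN in
/-- **(X-LP), generic core.** -/
theorem xlp_core {t : FK N L} {t' : FK M' L} (ht' : IsCoord M' t') (P : LinePair L t)
    (hnorm : ∀ f : FK N L, cL M' L (normAlong ψL f) = normAlong ψb (cL N L f))
    (hCC0 : ∀ w : Place Qbar (Fbar N),
      cL M' L t' ∈ (w.restrictAlong ψb hψb).toValuationSubring → cL N L t ∈ w.toValuationSubring)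
    (hCC1 : ∀ w : Place Qbar (Fbar N),
      (cL M' L t')⁻¹ ∈ (w.restrictAlong ψb hψb).toValuationSubring →
        (cL N L t)⁻¹ ∈ w.toValuationSubring)
    {g : Fbar M'} (hg0 : g ≠ 0)
    (hg : ∀ v : Place Qbar (Fbar M'),
      Divisor.pushforwardAlong ψb hψb (LinePair.divL P) v = v.ord g)
    {h : FK M' L} (hh0 : h ≠ 0)
    (hh : ∀ v : Place Qbar (Fbar M'), v.ord (cL M' L h) = v.ord g)
    (h5a0 : ∀ f ∈ P.I0, f ≠ 0 → ∀ w : Place Qbar (Fbar N), cL N L t ∈ w.toValuationSubring →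
      -LinePair.divL P w ≤ w.ord (cL N L f))
    (h5a1 : ∀ f ∈ P.I1, f ≠ 0 → ∀ w : Place Qbar (Fbar N),
      (cL N L t)⁻¹ ∈ w.toValuationSubring → -LinePair.divL P w ≤ w.ord (cL N L f))
    (h5b0 : ∀ f : FK N L, f ≠ 0 → (∀ a ∈ P.I0, f * a ∈ C0 (K := L) t) →
      ∀ w : Place Qbar (Fbar N), cL N L t ∈ w.toValuationSubring →
        LinePair.divL P w ≤ w.ord (cL N L f))
    (h5b1 : ∀ f : FK N L, f ≠ 0 → (∀ a ∈ P.I1, f * a ∈ C1 (K := L) t) →
      ∀ w : Place Qbar (Fbar N), (cL N L t)⁻¹ ∈ w.toValuationSubring →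
        LinePair.divL P w ≤ w.ord (cL N L f))
    (f : FK N L) :
    (f ∈ P.I0 → normAlong ψL f * h ∈ C0 (K := L) t') ∧
    (f ∈ P.I1 → normAlong ψL f * h ∈ C1 (K := L) t') ∧
    ((∀ a ∈ P.I0, f * a ∈ C0 (K := L) t) → normAlong ψL f * h⁻¹ ∈ C0 (K := L) t') ∧
    ((∀ a ∈ P.I1, f * a ∈ C1 (K := L) t) → normAlong ψL f * h⁻¹ ∈ C1 (K := L) t') := by
  by_cases hf0 : f = 0
  · -- `f = 0`
    have hz : normAlong ψL f = 0 := by
      have h1 := hnorm f
      rw [hf0, map_zero, normAlong_zero' ψb hfin] at h1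
      rw [hf0]
      exact (map_eq_zero (cL M' L)).1 h1
    rw [hz, zero_mul, zero_mul]
    exact ⟨fun _ => zero_mem _, fun _ => zero_mem _, fun _ => zero_mem _, fun _ => zero_mem _⟩
  have hcf : cL N L f ≠ 0 := (map_ne_zero (cL N L)).2 hf0
  have hNf : normAlong ψb (cL N L f) ≠ 0 := normAlong_ne_zero' ψb hfin hcf
  have hch : cL M' L h ≠ 0 := (map_ne_zero (cL M' L)).2 hh0
  -- transfer of the two regularity statements to `L`-rational elements
  have key : ∀ v : Place Qbar (Fbar M'), 0 ≤ v.ord (normAlong ψb (cL N L f) * g) →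
      0 ≤ v.ord (cL M' L (normAlong ψL f * h)) := by
    intro v hv
    rw [map_mul, hnorm, v.ord_mul hNf hch, hh v, ← v.ord_mul hNf hg0]
    exact hv
  have keyinv : ∀ v : Place Qbar (Fbar M'), 0 ≤ v.ord (normAlong ψb (cL N L f) * g⁻¹) →
      0 ≤ v.ord (cL M' L (normAlong ψL f * h⁻¹)) := by
    intro v hv
    rw [map_mul, hnorm, map_inv₀, v.ord_mul hNf (inv_ne_zero hch), v.ord_inv, hh v, ← v.ord_inv,
      ← v.ord_mul hNf (inv_ne_zero hg0)]
    exact hv
  refine ⟨fun hfI => ?_, fun hfI => ?_, fun hfI => ?_, fun hfI => ?_⟩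
  · refine mem_C0_of_ord_nonneg ht' _ fun v hv => key v ?_
    exact ord_norm_mul_nonneg ψb hψb hfin hN hg0 hg hcf v fun w hw =>
      h5a0 f hfI hf0 w (hCC0 w (by rw [hw]; exact hv))
  · refine mem_C1_of_ord_nonneg ht' _ fun v hv => key v ?_
    exact ord_norm_mul_nonneg ψb hψb hfin hN hg0 hg hcf v fun w hw =>
      h5a1 f hfI hf0 w (hCC1 w (by rw [hw]; exact hv))
  · refine mem_C0_of_ord_nonneg ht' _ fun v hv => keyinv v ?_
    exact ord_norm_mul_inv_nonneg ψb hψb hfin hN hg0 hg hcf v fun w hw =>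
      h5b0 f hf0 hfI w (hCC0 w (by rw [hw]; exact hv))
  · refine mem_C1_of_ord_nonneg ht' _ fun v hv => keyinv v ?_
    exact ord_norm_mul_inv_nonneg ψb hψb hfin hN hg0 hg hcf v fun w hw =>
      h5b1 f hf0 hfI w (hCC1 w (by rw [hw]; exact hv))

end Core

end Fermat.Agent.T1B.Cmp38
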