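/-
T1B / brick CMP (helper38): **(X-LP)** for the two degeneracy maps `degenOne = (α_p)_*`,
`degenTwo = (β_p)_*` (helper21's `Degen21.Occ`), in helper67's exact `Dict59` form.

For `P : LinePair L t` of degree `0` over a number field `L`, with `degenOne M' p (cls P) = 0`:
  `∃ h ∈ (L·F_{M'})ˣ, ∀ f,  (f ∈ P.I_j → N_α f * h ∈ C_j(t'))  ∧  (f • P.I_j ⊆ C_j(t) → N_α f * h⁻¹ ∈ C_j(t'))`.
Inputs kept as hypotheses (helper67's files `Cmp67/{Descent,OrdBound}.lean`): the descent (2) of the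
function `g` with `(α_p)_* (divL P) = div g` to `L·F_{M'}`, the order bounds (5), and the chart
compatibility (CC) (a model fact for `β`).
-/
import Mathlib
import Fermat.Agent.T1B.Cmp38.XLPCore
import Fermat.Agent.T1B.Cmp38.NormCL
import Fermat.Agent.T1B.Degen21.Ker
import Fermat.Agent.T1B.Cmp67.OrdBound
import Fermat.Agent.T1B.Cmp67.DescHecke

set_option autoImplicit false
set_option linter.unusedSectionVars false
set_option linter.style.haveILetI false
set_option synthInstance.maxHeartbeats 400000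
set_option maxHeartbeats 1000000

open HahnSeries AlgebraicCurve ModularCurve IntermediateField
open Fermat.Agent.RED.Interface4 Fermat.Agent.X0.FF Fermat.Agent.T1.Dict59
open Fermat.Agent.ES.HECKE Fermat.Agent.T1B.DivNorm27 Fermat.Agent.T1B.Degen21.Occ
  Fermat.Agent.T1B.Degen21.Ker Fermat.Agent.ES.HECKE.InputsMain19
open Fermat.Agent.ES.HECKE.BaseChange19 (normAlong)

noncomputable section

namespace Fermat.Agent.T1B.Cmp38

variable (M' p : ℕ) [NeZero M'] [NeZero p] [NeZero (M' * p)] {L : IntermediateField ℚ Qbar}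

/-- The hypotheses (5) on a line pair: order bounds on the two chart modules and their inverses. -/
structure OrdBounds {N : ℕ} {t : FK N L} (P : LinePair L t) : Prop where
  a0 : ∀ f ∈ P.I0, f ≠ 0 → ∀ w : Place Qbar (Fbar N), cL N L t ∈ w.toValuationSubring →
    -LinePair.divL P w ≤ w.ord (cL N L f)
  a1 : ∀ f ∈ P.I1, f ≠ 0 → ∀ w : Place Qbar (Fbar N), (cL N L t)⁻¹ ∈ w.toValuationSubring →
    -LinePair.divL P w ≤ w.ord (cL N L f)
  b0 : ∀ f : FK N L, f ≠ 0 → (∀ a ∈ P.I0, f * a ∈ C0 (K := L) t) →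
    ∀ w : Place Qbar (Fbar N), cL N L t ∈ w.toValuationSubring →
      LinePair.divL P w ≤ w.ord (cL N L f)
  b1 : ∀ f : FK N L, f ≠ 0 → (∀ a ∈ P.I1, f * a ∈ C1 (K := L) t) →
    ∀ w : Place Qbar (Fbar N), (cL N L t)⁻¹ ∈ w.toValuationSubring →
      LinePair.divL P w ≤ w.ord (cL N L f)

/-- **(5)**: the order bounds hold for every line pair (chart `0`, chart `1` off the overlap: helper67's
`Cmp67/OrdBound.lean`; chart `1` on the overlap: `Dict59.ordInf_I1_eq_I0`). -/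
theorem ordBounds {N : ℕ} [NeZero N] {t : FK N L} (ht : IsCoord N t) (P : LinePair L t) :
    OrdBounds P where
  a0 := fun f hf hf0 w hw =>
    Fermat.Agent.T1B.Cmp67.neg_divL_le_ord_of_mem0 ht.nonConst P w hw hf hf0
  a1 := fun f hf hf0 w hw => by
    by_cases h0 : cL N L t ∈ w.toValuationSubring
    · rw [divL_apply ht.nonConst, LinePair.divFun_of_mem P w h0, neg_neg,
        ← ordInf_I1_eq_I0 ht.ne_zero P w h0 hw]
      exact Fermat.Agent.T1.Dict59.OrdInf.ordInf_le (cL N L) w (cL_C1_mem' w hw) P.I1 P.fg1 hf hf0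
    · exact Fermat.Agent.T1B.Cmp67.neg_divL_le_ord_of_mem1 ht.nonConst P w h0 hf hf0
  b0 := fun f hf0 hf w hw =>
    Fermat.Agent.T1B.Cmp67.divL_le_ord_of_mul_mem0 ht.nonConst P w hw hf0 hf
  b1 := fun f hf0 hf w hw => by
    by_cases h0 : cL N L t ∈ w.toValuationSubring
    · rw [divL_apply ht.nonConst, LinePair.divFun_of_mem P w h0,
        ← ordInf_I1_eq_I0 ht.ne_zero P w h0 hw]
      obtain ⟨a, ha, ha0, hord⟩ := Fermat.Agent.T1.Dict59.OrdInf.exists_ordInf_eq (cL N L) w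
        (cL_C1_mem' w hw) P.I1 P.fg1 P.ne1
      rw [← hord]
      have h1 : cL N L (f * a) ∈ w.toValuationSubring := cL_C1_mem' w hw _ (hf a ha)
      have h2 := Fermat.Agent.X0.FF.ord_nonneg_of_mem w h1
      rw [map_mul, w.ord_mul ((map_ne_zero (cL N L)).2 hf0) ((map_ne_zero (cL N L)).2 ha0)] at h2
      omega
    · exact Fermat.Agent.T1B.Cmp67.divL_le_ord_of_mul_mem1 ht.nonConst P w h0 hf0 hf

/-- **(X-LP) for `α`** (`degenOne`). -/
theorem xlp_degenOne (hdr : DegenRange M' p) {t : FK (M' * p) L} {t' : FK M' L}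
    (ht' : IsCoord M' t') (P : LinePair L t) (hdeg : LinePair.deg P = 0)
    (hker : degenOne M' p (LinePair.cls P) = 0)
    (hCC0 : ∀ w : Place Qbar (Fbar (M' * p)),
      cL M' L t' ∈ (w.restrictAlong (heckeAlphaBar Qbar M' p)
        (heckeAlphaBarIntegral_all M' p hdr.1)).toValuationSubring →
        cL (M' * p) L t ∈ w.toValuationSubring)
    (hCC1 : ∀ w : Place Qbar (Fbar (M' * p)),
      (cL M' L t')⁻¹ ∈ (w.restrictAlong (heckeAlphaBar Qbar M' p)
        (heckeAlphaBarIntegral_all M' p hdr.1)).toValuationSubring →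
        (cL (M' * p) L t)⁻¹ ∈ w.toValuationSubring)
    (hdesc : ∀ g : Fbar M', g ≠ 0 → (∀ v : Place Qbar (Fbar M'),
        Divisor.pushforwardAlong (heckeAlphaBar Qbar M' p) (heckeAlphaBarIntegral_all M' p hdr.1)
          (LinePair.divL P) v = v.ord g) →
      ∃ h : FK M' L, h ≠ 0 ∧ ∀ v : Place Qbar (Fbar M'), v.ord (cL M' L h) = v.ord g)
    (h5 : OrdBounds P) :
    ∃ h : FK M' L, h ≠ 0 ∧ ∀ f : FK (M' * p) L,
      (f ∈ P.I0 → normAlong (heckeAlphaBar ↥L M' p) f * h ∈ C0 (K := L) t') ∧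
      (f ∈ P.I1 → normAlong (heckeAlphaBar ↥L M' p) f * h ∈ C1 (K := L) t') ∧
      ((∀ a ∈ P.I0, f * a ∈ C0 (K := L) t) →
        normAlong (heckeAlphaBar ↥L M' p) f * h⁻¹ ∈ C0 (K := L) t') ∧
      ((∀ a ∈ P.I1, f * a ∈ C1 (K := L) t) →
        normAlong (heckeAlphaBar ↥L M' p) f * h⁻¹ ∈ C1 (K := L) t') := by
  haveI := hasPrincipalDivisors_level M' p
  have hcls : LinePair.cls P = Pic0.mk ⟨LinePair.divL P, Divisor.mem_degZero.2 hdeg⟩ := by
    unfold LinePair.cls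
    rw [dif_pos hdeg]
  rw [hcls] at hker
  obtain ⟨g, hg0, hg⟩ := (degenOne_mk_eq_zero_iff M' p hdr _).mp hker
  obtain ⟨h, hh0, hh⟩ := hdesc g hg0 hg
  exact ⟨h, hh0, xlp_core (heckeAlphaBar ↥L M' p) (heckeAlphaBar Qbar M' p)
    (heckeAlphaBarIntegral_all M' p hdr.1) (finiteAlong_alpha_all M' p hdr.1)
    (normFormulaAlong_alpha_all M' p hdr.1) ht' P
    (cL_normAlong_alpha M' p L hdr.1 hdr.2.1) hCC0 hCC1 hg0 hg hh0 hh h5.a0 h5.a1 h5.b0 h5.b1⟩

/-- **(X-LP) for `β`** (`degenTwo`). -/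
theorem xlp_degenTwo (hdr : DegenRange M' p) {t : FK (M' * p) L} {t' : FK M' L}
    (ht' : IsCoord M' t') (P : LinePair L t) (hdeg : LinePair.deg P = 0)
    (hker : degenTwo M' p (LinePair.cls P) = 0)
    (hCC0 : ∀ w : Place Qbar (Fbar (M' * p)),
      cL M' L t' ∈ (w.restrictAlong (heckeBetaBar Qbar M' p)
        (heckeBetaBarIntegral_all M' p hdr.1)).toValuationSubring →
        cL (M' * p) L t ∈ w.toValuationSubring)
    (hCC1 : ∀ w : Place Qbar (Fbar (M' * p)),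
      (cL M' L t')⁻¹ ∈ (w.restrictAlong (heckeBetaBar Qbar M' p)
        (heckeBetaBarIntegral_all M' p hdr.1)).toValuationSubring →
        (cL (M' * p) L t)⁻¹ ∈ w.toValuationSubring)
    (hdesc : ∀ g : Fbar M', g ≠ 0 → (∀ v : Place Qbar (Fbar M'),
        Divisor.pushforwardAlong (heckeBetaBar Qbar M' p) (heckeBetaBarIntegral_all M' p hdr.1)
          (LinePair.divL P) v = v.ord g) →
      ∃ h : FK M' L, h ≠ 0 ∧ ∀ v : Place Qbar (Fbar M'), v.ord (cL M' L h) = v.ord g)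
    (h5 : OrdBounds P) :
    ∃ h : FK M' L, h ≠ 0 ∧ ∀ f : FK (M' * p) L,
      (f ∈ P.I0 → normAlong (heckeBetaBar ↥L M' p) f * h ∈ C0 (K := L) t') ∧
      (f ∈ P.I1 → normAlong (heckeBetaBar ↥L M' p) f * h ∈ C1 (K := L) t') ∧
      ((∀ a ∈ P.I0, f * a ∈ C0 (K := L) t) →
        normAlong (heckeBetaBar ↥L M' p) f * h⁻¹ ∈ C0 (K := L) t') ∧
      ((∀ a ∈ P.I1, f * a ∈ C1 (K := L) t) →
        normAlong (heckeBetaBar ↥L M' p) f * h⁻¹ ∈ C1 (K := L) t') := by
  haveI := hasPrincipalDivisors_level M' p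
  have hcls : LinePair.cls P = Pic0.mk ⟨LinePair.divL P, Divisor.mem_degZero.2 hdeg⟩ := by
    unfold LinePair.cls
    rw [dif_pos hdeg]
  rw [hcls] at hker
  obtain ⟨g, hg0, hg⟩ := (degenTwo_mk_eq_zero_iff M' p hdr _).mp hker
  obtain ⟨h, hh0, hh⟩ := hdesc g hg0 hg
  exact ⟨h, hh0, xlp_core (heckeBetaBar ↥L M' p) (heckeBetaBar Qbar M' p)
    (heckeBetaBarIntegral_all M' p hdr.1) (finiteAlong_beta_all M' p hdr.1)
    (normFormulaAlong_beta_all M' p hdr.1) ht' P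
    (cL_normAlong_beta M' p L hdr.1 hdr.2.1) hCC0 hCC1 hg0 hg hh0 hh h5.a0 h5.a1 h5.b0 h5.b1⟩

/-! ### Final forms: (2) and (5) discharged (helper67's `Cmp67/DescHecke`, `ordBounds`); only the chart
compatibility (CC) stays as a hypothesis. -/

/-- **(X-LP) for `α`, final form.** -/
theorem xlp_alpha (hdr : DegenRange M' p) {t : FK (M' * p) L} {t' : FK M' L}
    (ht : IsCoord (M' * p) t) (ht' : IsCoord M' t') (P : LinePair L t) (hdeg : LinePair.deg P = 0)
    (hker : degenOne M' p (LinePair.cls P) = 0)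
    (hCC0 : ∀ w : Place Qbar (Fbar (M' * p)),
      cL M' L t' ∈ (w.restrictAlong (heckeAlphaBar Qbar M' p)
        (heckeAlphaBarIntegral_all M' p hdr.1)).toValuationSubring →
        cL (M' * p) L t ∈ w.toValuationSubring)
    (hCC1 : ∀ w : Place Qbar (Fbar (M' * p)),
      (cL M' L t')⁻¹ ∈ (w.restrictAlong (heckeAlphaBar Qbar M' p)
        (heckeAlphaBarIntegral_all M' p hdr.1)).toValuationSubring →
        (cL (M' * p) L t)⁻¹ ∈ w.toValuationSubring) :
    ∃ h : FK M' L, h ≠ 0 ∧ ∀ f : FK (M' * p) L,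
      (f ∈ P.I0 → normAlong (heckeAlphaBar ↥L M' p) f * h ∈ C0 (K := L) t') ∧
      (f ∈ P.I1 → normAlong (heckeAlphaBar ↥L M' p) f * h ∈ C1 (K := L) t') ∧
      ((∀ a ∈ P.I0, f * a ∈ C0 (K := L) t) →
        normAlong (heckeAlphaBar ↥L M' p) f * h⁻¹ ∈ C0 (K := L) t') ∧
      ((∀ a ∈ P.I1, f * a ∈ C1 (K := L) t) →
        normAlong (heckeAlphaBar ↥L M' p) f * h⁻¹ ∈ C1 (K := L) t') :=
  xlp_degenOne M' p hdr ht' P hdeg hker hCC0 hCC1
    (fun g hg hD => Fermat.Agent.T1B.Cmp67.hdesc_alpha M' p hdr.1 L t P g hg hD) (ordBounds ht P)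

/-- **(X-LP) for `β`, final form.** -/
theorem xlp_beta (hdr : DegenRange M' p) {t : FK (M' * p) L} {t' : FK M' L}
    (ht : IsCoord (M' * p) t) (ht' : IsCoord M' t') (P : LinePair L t) (hdeg : LinePair.deg P = 0)
    (hker : degenTwo M' p (LinePair.cls P) = 0)
    (hCC0 : ∀ w : Place Qbar (Fbar (M' * p)),
      cL M' L t' ∈ (w.restrictAlong (heckeBetaBar Qbar M' p)
        (heckeBetaBarIntegral_all M' p hdr.1)).toValuationSubring →
        cL (M' * p) L t ∈ w.toValuationSubring)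
    (hCC1 : ∀ w : Place Qbar (Fbar (M' * p)),
      (cL M' L t')⁻¹ ∈ (w.restrictAlong (heckeBetaBar Qbar M' p)
        (heckeBetaBarIntegral_all M' p hdr.1)).toValuationSubring →
        (cL (M' * p) L t)⁻¹ ∈ w.toValuationSubring) :
    ∃ h : FK M' L, h ≠ 0 ∧ ∀ f : FK (M' * p) L,
      (f ∈ P.I0 → normAlong (heckeBetaBar ↥L M' p) f * h ∈ C0 (K := L) t') ∧
      (f ∈ P.I1 → normAlong (heckeBetaBar ↥L M' p) f * h ∈ C1 (K := L) t') ∧
      ((∀ a ∈ P.I0, f * a ∈ C0 (K := L) t) →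
        normAlong (heckeBetaBar ↥L M' p) f * h⁻¹ ∈ C0 (K := L) t') ∧
      ((∀ a ∈ P.I1, f * a ∈ C1 (K := L) t) →
        normAlong (heckeBetaBar ↥L M' p) f * h⁻¹ ∈ C1 (K := L) t') :=
  xlp_degenTwo M' p hdr ht' P hdeg hker hCC0 hCC1
    (fun g hg hD => Fermat.Agent.T1B.Cmp67.hdesc_beta M' p hdr.1 L t P g hg hD) (ordBounds ht P)

end Fermat.Agent.T1B.Cmp38
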